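import Mathlib

/-!
# Row LT, sub-tower T6inf, leaf T6inf.05 (helper502): the calculus core

OFF-MAIN.  Mathlib only.

`P_s(t) = (1/2π) ∫₀^{2π} (cosh t + sinh t cos u)^{s - 1/2} du`.

* `sphP_expand502`: `‖P_s(t) - 1 - (s² - 1/4) sinh² t / 4‖ ≤ C sinh³ t` for `sinh t` small.
* `param_of_bounded502`: if `P_s` is real and bounded by `1` on `(0, ∞)` then `s² - 1/4` is real
  and `≤ 0`.
* `sphR_bounded502`: then `R_{2s}(d) = sinh (2 s d) / (2 s sinh d)` is real and bounded by `1`.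
-/

set_option autoImplicit false

open Real MeasureTheory

noncomputable section

namespace Fermat.Agent.LT.T6.Inf.H502

/-! ## A. The pointwise expansion of `(1 + x) ^ a` -/

theorem log_expand502 (x : ℝ) (hx : |x| ≤ 1 / 2) :
    |Real.log (1 + x) - (x - x ^ 2 / 2)| ≤ 2 * |x| ^ 3 := by
  have h1 : |(-x)| < 1 := by rw [abs_neg]; linarith
  have h := Real.abs_log_sub_add_sum_range_le h1 2
  simp only [Finset.sum_range_succ, Finset.sum_range_zero, abs_neg] at h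
  have h2 : (0 + (-x) ^ (0 + 1) / ((0 : ℕ) + 1 : ℝ) + (-x) ^ (1 + 1) / ((1 : ℕ) + 1 : ℝ))
      + Real.log (1 - -x) = Real.log (1 + x) - (x - x ^ 2 / 2) := by
    rw [sub_neg_eq_add]
    push_cast
    ring
  rw [h2] at h
  refine h.trans ?_
  have h3 : 0 < 1 - |x| := by linarith
  rw [div_le_iff₀ h3]
  have h4 : 0 ≤ |x| ^ 3 := by positivity
  have h5 : |x| ^ (2 + 1) = |x| ^ 3 := by norm_num
  rw [h5]
  nlinarith [mul_nonneg h4 (by linarith : (0 : ℝ) ≤ 1 / 2 - |x|)]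

theorem exp_expand502 (z : ℂ) (hz : ‖z‖ ≤ 1) :
    ‖Complex.exp z - (1 + z + z ^ 2 / 2)‖ ≤ ‖z‖ ^ 3 := by
  have h := Complex.exp_bound hz (n := 3) (by norm_num)
  simp only [Finset.sum_range_succ, Finset.sum_range_zero] at h
  have h2 : (0 + z ^ 0 / ((Nat.factorial 0 : ℕ) : ℂ) + z ^ 1 / ((Nat.factorial 1 : ℕ) : ℂ)
      + z ^ 2 / ((Nat.factorial 2 : ℕ) : ℂ)) = 1 + z + z ^ 2 / 2 := by
    simp [Nat.factorial]
  rw [h2] at h
  refine h.trans ?_
  have h3 : ((Nat.succ 3 : ℕ) : ℝ) * (((Nat.factorial 3 : ℕ) : ℝ) * ((3 : ℕ) : ℝ))⁻¹ ≤ 1 := by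
    simp [Nat.factorial]
    norm_num
  have h4 : 0 ≤ ‖z‖ ^ 3 := by positivity
  calc ‖z‖ ^ 3 * (((Nat.succ 3 : ℕ) : ℝ) * (((Nat.factorial 3 : ℕ) : ℝ) * ((3 : ℕ) : ℝ))⁻¹)
      ≤ ‖z‖ ^ 3 * 1 := mul_le_mul_of_nonneg_left h3 h4
    _ = ‖z‖ ^ 3 := mul_one _

/-- The constant of the pointwise expansion. -/
def kA502 (a : ℂ) : ℝ := 2 * ‖a‖ + 9 / 4 * ‖a‖ ^ 2 + 8 * ‖a‖ ^ 3

theorem kA_nonneg502 (a : ℂ) : 0 ≤ kA502 a := by
  unfold kA502
  positivity

theorem cpow_expand502 (a : ℂ) (x : ℝ) (hx : |x| ≤ 1 / 2) (hxa : 2 * ‖a‖ * |x| ≤ 1) :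
    ‖(((1 + x : ℝ) : ℂ)) ^ a - (1 + a * x + (a ^ 2 - a) * (x : ℂ) ^ 2 / 2)‖
      ≤ kA502 a * |x| ^ 3 := by
  have hx0 : 0 ≤ |x| := abs_nonneg x
  have hpos : 0 < 1 + x := by
    have := neg_abs_le x
    linarith
  have hne : ((1 + x : ℝ) : ℂ) ≠ 0 := by
    exact_mod_cast hpos.ne'
  set L : ℝ := Real.log (1 + x) with hL
  have hcp : (((1 + x : ℝ) : ℂ)) ^ a = Complex.exp (a * (L : ℂ)) := by
    rw [Complex.cpow_def_of_ne_zero hne, ← Complex.ofReal_log hpos.le, mul_comm]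
  have hr := log_expand502 x hx
  set r : ℝ := L - (x - x ^ 2 / 2) with hrdef
  have hx2 : x ^ 2 = |x| ^ 2 := (sq_abs x).symm
  have hx3 : |x| ^ 3 ≤ |x| ^ 2 / 2 := by
    have : |x| ^ 3 = |x| ^ 2 * |x| := by ring
    rw [this]
    nlinarith [sq_nonneg |x|]
  have hx21 : |x| ^ 2 ≤ |x| / 2 := by
    have : |x| ^ 2 = |x| * |x| := by ring
    rw [this]
    nlinarith
  -- `|L - x| ≤ 3/2 x²`, `|L| ≤ 2 |x|`, `|L + x| ≤ 3 |x|`
  have hLx : |L - x| ≤ 3 / 2 * |x| ^ 2 := by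
    have e : L - x = r - x ^ 2 / 2 := by rw [hrdef]; ring
    rw [e]
    calc |r - x ^ 2 / 2| ≤ |r| + |x ^ 2 / 2| := abs_sub _ _
      _ ≤ 2 * |x| ^ 3 + |x| ^ 2 / 2 := by
          have : |x ^ 2 / 2| = |x| ^ 2 / 2 := by
            rw [abs_div, abs_pow, abs_of_pos (by norm_num : (0 : ℝ) < 2)]
          rw [this]
          linarith
      _ ≤ 3 / 2 * |x| ^ 2 := by linarith
  have hLabs : |L| ≤ 2 * |x| := by
    have e : L = (L - x) + x := by ring
    calc |L| = |(L - x) + x| := by rw [← e]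
      _ ≤ |L - x| + |x| := abs_add_le _ _
      _ ≤ 3 / 2 * |x| ^ 2 + |x| := by linarith
      _ ≤ 2 * |x| := by linarith
  have hLpx : |L + x| ≤ 3 * |x| := by
    calc |L + x| ≤ |L| + |x| := abs_add_le _ _
      _ ≤ 3 * |x| := by linarith
  have hL2 : |L ^ 2 - x ^ 2| ≤ 9 / 2 * |x| ^ 3 := by
    have e : L ^ 2 - x ^ 2 = (L - x) * (L + x) := by ring
    rw [e, abs_mul]
    calc |L - x| * |L + x| ≤ (3 / 2 * |x| ^ 2) * (3 * |x|) :=
          mul_le_mul hLx hLpx (abs_nonneg _) (by positivity)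
      _ = 9 / 2 * |x| ^ 3 := by ring
  -- the exponential
  have hz : ‖a * (L : ℂ)‖ ≤ 1 := by
    rw [norm_mul, Complex.norm_real, Real.norm_eq_abs]
    calc ‖a‖ * |L| ≤ ‖a‖ * (2 * |x|) := mul_le_mul_of_nonneg_left hLabs (norm_nonneg _)
      _ = 2 * ‖a‖ * |x| := by ring
      _ ≤ 1 := hxa
  have hz3 : ‖a * (L : ℂ)‖ ^ 3 ≤ 8 * ‖a‖ ^ 3 * |x| ^ 3 := by
    rw [norm_mul, Complex.norm_real, Real.norm_eq_abs]
    have h1 : ‖a‖ * |L| ≤ ‖a‖ * (2 * |x|) :=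
      mul_le_mul_of_nonneg_left hLabs (norm_nonneg _)
    calc (‖a‖ * |L|) ^ 3 ≤ (‖a‖ * (2 * |x|)) ^ 3 :=
          pow_le_pow_left₀ (by positivity) h1 3
      _ = 8 * ‖a‖ ^ 3 * |x| ^ 3 := by ring
  have he := exp_expand502 (a * (L : ℂ)) hz
  have hsplit : Complex.exp (a * (L : ℂ)) - (1 + a * x + (a ^ 2 - a) * (x : ℂ) ^ 2 / 2)
      = (Complex.exp (a * (L : ℂ)) - (1 + a * (L : ℂ) + (a * (L : ℂ)) ^ 2 / 2))
        + (a * ((r : ℝ) : ℂ) + a ^ 2 * (((L ^ 2 - x ^ 2 : ℝ)) : ℂ) / 2) := by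
    rw [hrdef]
    push_cast
    ring
  rw [hcp, hsplit]
  have hn1 : ‖a * ((r : ℝ) : ℂ)‖ ≤ 2 * ‖a‖ * |x| ^ 3 := by
    rw [norm_mul, Complex.norm_real, Real.norm_eq_abs]
    calc ‖a‖ * |r| ≤ ‖a‖ * (2 * |x| ^ 3) := mul_le_mul_of_nonneg_left hr (norm_nonneg _)
      _ = 2 * ‖a‖ * |x| ^ 3 := by ring
  have hn2 : ‖a ^ 2 * (((L ^ 2 - x ^ 2 : ℝ)) : ℂ) / 2‖ ≤ 9 / 4 * ‖a‖ ^ 2 * |x| ^ 3 := by
    rw [norm_div, norm_mul, norm_pow, Complex.norm_real, Real.norm_eq_abs]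
    have : ‖(2 : ℂ)‖ = 2 := by simp
    rw [this]
    calc ‖a‖ ^ 2 * |L ^ 2 - x ^ 2| / 2 ≤ ‖a‖ ^ 2 * (9 / 2 * |x| ^ 3) / 2 := by
          apply div_le_div_of_nonneg_right _ (by norm_num : (0 : ℝ) ≤ 2)
          exact mul_le_mul_of_nonneg_left hL2 (by positivity)
      _ = 9 / 4 * ‖a‖ ^ 2 * |x| ^ 3 := by ring
  calc ‖(Complex.exp (a * (L : ℂ)) - (1 + a * (L : ℂ) + (a * (L : ℂ)) ^ 2 / 2))
        + (a * ((r : ℝ) : ℂ) + a ^ 2 * (((L ^ 2 - x ^ 2 : ℝ)) : ℂ) / 2)‖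
      ≤ ‖Complex.exp (a * (L : ℂ)) - (1 + a * (L : ℂ) + (a * (L : ℂ)) ^ 2 / 2)‖
        + (‖a * ((r : ℝ) : ℂ)‖ + ‖a ^ 2 * (((L ^ 2 - x ^ 2 : ℝ)) : ℂ) / 2‖) :=
        (norm_add_le _ _).trans (add_le_add_right (norm_add_le _ _) _)
    _ ≤ 8 * ‖a‖ ^ 3 * |x| ^ 3 + (2 * ‖a‖ * |x| ^ 3 + 9 / 4 * ‖a‖ ^ 2 * |x| ^ 3) := by
        have := he.trans hz3
        linarith
    _ = kA502 a * |x| ^ 3 := by unfold kA502; ring

/-! ## B. The expansion of `P_s(t)` at `t = 0` -/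

/-- `P_s(t)` (the body of `T6.Inf.sphP`). -/
def sphP502 (s : ℂ) (t : ℝ) : ℂ :=
  (1 / (2 * Real.pi) : ℝ) *
    ∫ u in (0 : ℝ)..(2 * Real.pi),
      (((Real.cosh t + Real.sinh t * Real.cos u : ℝ) : ℂ)) ^ (s - 1 / 2)

theorem integral_poly_cos502 (c₀ c₁ c₂ : ℂ) :
    ∫ u in (0 : ℝ)..(2 * Real.pi),
        (c₀ + c₁ * ((Real.cos u : ℝ) : ℂ) + c₂ * ((Real.cos u : ℝ) : ℂ) ^ 2)
      = 2 * Real.pi * c₀ + Real.pi * c₂ := by
  have h1 : IntervalIntegrable (fun _ : ℝ => (c₀ : ℂ)) volume 0 (2 * Real.pi) :=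
    continuous_const.intervalIntegrable _ _
  have h2 : IntervalIntegrable (fun u : ℝ => c₁ * ((Real.cos u : ℝ) : ℂ)) volume 0
      (2 * Real.pi) :=
    Continuous.intervalIntegrable (by fun_prop) _ _
  have h3 : IntervalIntegrable (fun u : ℝ => c₂ * ((Real.cos u : ℝ) : ℂ) ^ 2) volume 0
      (2 * Real.pi) :=
    Continuous.intervalIntegrable (by fun_prop) _ _
  have e1 : ∫ u in (0 : ℝ)..(2 * Real.pi), ((Real.cos u : ℝ) : ℂ) = 0 := by
    rw [intervalIntegral.integral_ofReal, integral_cos]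
    simp
  have e2 : ∫ u in (0 : ℝ)..(2 * Real.pi), ((Real.cos u : ℝ) : ℂ) ^ 2 = Real.pi := by
    have : (fun u : ℝ => ((Real.cos u : ℝ) : ℂ) ^ 2)
        = fun u => (((Real.cos u) ^ 2 : ℝ) : ℂ) := by
      ext u
      push_cast
      rfl
    rw [this, intervalIntegral.integral_ofReal, integral_cos_sq]
    simp
  rw [intervalIntegral.integral_add (h1.add h2) h3, intervalIntegral.integral_add h1 h2,
    intervalIntegral.integral_const, intervalIntegral.integral_const_mul,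
    intervalIntegral.integral_const_mul, e1, e2]
  simp
  ring

theorem continuous_integrand502 (a : ℂ) (t : ℝ) :
    Continuous fun u : ℝ => (((Real.cosh t + Real.sinh t * Real.cos u : ℝ) : ℂ)) ^ a := by
  have hpos : ∀ u : ℝ, 0 < Real.cosh t + Real.sinh t * Real.cos u := by
    intro u
    have h1 : |Real.sinh t * Real.cos u| ≤ |Real.sinh t| := by
      rw [abs_mul]
      calc |Real.sinh t| * |Real.cos u| ≤ |Real.sinh t| * 1 :=
            mul_le_mul_of_nonneg_left (Real.abs_cos_le_one u) (abs_nonneg _)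
        _ = |Real.sinh t| := mul_one _
    have h2 : |Real.sinh t| < Real.cosh t := by
      rw [abs_lt]
      constructor
      · have := Real.cosh_add_sinh t
        have := Real.exp_pos t
        linarith
      · exact Real.sinh_lt_cosh t
    have h3 := neg_abs_le (Real.sinh t * Real.cos u)
    linarith
  have hc : Continuous fun u : ℝ => ((Real.cosh t + Real.sinh t * Real.cos u : ℝ) : ℂ) := by
    fun_prop
  refine Continuous.cpow hc continuous_const ?_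
  intro u
  exact Complex.ofReal_mem_slitPlane.2 (hpos u)

/-- The constant of the expansion of `P_s`. -/
def kP502 (s : ℂ) : ℝ := 8 * kA502 (s - 1 / 2) + ‖(s - 1 / 2) ^ 2 - 2 * (s - 1 / 2)‖

theorem kP_nonneg502 (s : ℂ) : 0 ≤ kP502 s := by
  unfold kP502
  have := kA_nonneg502 (s - 1 / 2)
  positivity

/-- The radius of the expansion of `P_s`. -/
def bP502 (s : ℂ) : ℝ := min (1 / 4) (1 / (4 * ‖s - 1 / 2‖ + 1))

theorem bP_pos502 (s : ℂ) : 0 < bP502 s := by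
  unfold bP502
  apply lt_min (by norm_num)
  positivity

/-- **The expansion of `P_s` at `t = 0`**: `P_s(t) = 1 + (s² - 1/4) sinh² t / 4 + O(sinh³ t)`. -/
theorem sphP_expand502 (s : ℂ) (t : ℝ) (ht : 0 < t) (hB : Real.sinh t ≤ bP502 s) :
    ‖sphP502 s t - 1 - (s ^ 2 - 1 / 4) * ((Real.sinh t : ℝ) : ℂ) ^ 2 / 4‖
      ≤ kP502 s * Real.sinh t ^ 3 := by
  set a : ℂ := s - 1 / 2 with ha
  set A : ℝ := Real.cosh t - 1 with hA
  set B : ℝ := Real.sinh t with hBdef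
  have hBpos : 0 < B := Real.sinh_pos_iff.2 ht
  have hA0 : 0 ≤ A := by
    have := Real.one_le_cosh t
    rw [hA]; linarith
  have hB4 : B ≤ 1 / 4 := hB.trans (min_le_left _ _)
  have hBa : B ≤ 1 / (4 * ‖a‖ + 1) := hB.trans (min_le_right _ _)
  have hcs : Real.cosh t ^ 2 = B ^ 2 + 1 := Real.cosh_sq t
  -- `B² = A (A + 2)`
  have hAB : B ^ 2 = A * (A + 2) := by
    have : Real.cosh t = A + 1 := by rw [hA]; ring
    rw [this] at hcs
    nlinarith
  have hA2 : A ≤ B ^ 2 / 2 := by nlinarith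
  have hAB8 : A ≤ B / 8 := by nlinarith
  -- the pointwise bound
  have hpt : ∀ u : ℝ, ‖(((Real.cosh t + Real.sinh t * Real.cos u : ℝ) : ℂ)) ^ a
      - ((1 + a * A + (a ^ 2 - a) * (A : ℂ) ^ 2 / 2)
          + (a * B + (a ^ 2 - a) * A * B) * ((Real.cos u : ℝ) : ℂ)
          + ((a ^ 2 - a) * (B : ℂ) ^ 2 / 2) * ((Real.cos u : ℝ) : ℂ) ^ 2)‖
      ≤ 8 * kA502 a * B ^ 3 := by
    intro u
    set x : ℝ := A + B * Real.cos u with hx
    have hxabs : |x| ≤ 2 * B := by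
      have h1 : |B * Real.cos u| ≤ B := by
        rw [abs_mul, abs_of_pos hBpos]
        calc B * |Real.cos u| ≤ B * 1 :=
              mul_le_mul_of_nonneg_left (Real.abs_cos_le_one u) hBpos.le
          _ = B := mul_one _
      calc |x| ≤ |A| + |B * Real.cos u| := abs_add_le _ _
        _ ≤ A + B := by rw [abs_of_nonneg hA0]; linarith
        _ ≤ 2 * B := by linarith
    have hx12 : |x| ≤ 1 / 2 := by linarith
    have hxa : 2 * ‖a‖ * |x| ≤ 1 := by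
      have h1 : 2 * ‖a‖ * |x| ≤ 2 * ‖a‖ * (2 * B) :=
        mul_le_mul_of_nonneg_left hxabs (by positivity)
      have h2 : (4 * ‖a‖ + 1) * B ≤ 1 := by
        have h3 : 0 < 4 * ‖a‖ + 1 := by positivity
        calc (4 * ‖a‖ + 1) * B ≤ (4 * ‖a‖ + 1) * (1 / (4 * ‖a‖ + 1)) :=
              mul_le_mul_of_nonneg_left hBa h3.le
          _ = 1 := by field_simp
      nlinarith
    have h := cpow_expand502 a x hx12 hxa
    have e1 : ((1 + x : ℝ) : ℂ) = ((Real.cosh t + Real.sinh t * Real.cos u : ℝ) : ℂ) := by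
      congr 1
      rw [hx, hA]
      ring
    have e2 : (1 + a * x + (a ^ 2 - a) * (x : ℂ) ^ 2 / 2)
        = ((1 + a * A + (a ^ 2 - a) * (A : ℂ) ^ 2 / 2)
          + (a * B + (a ^ 2 - a) * A * B) * ((Real.cos u : ℝ) : ℂ)
          + ((a ^ 2 - a) * (B : ℂ) ^ 2 / 2) * ((Real.cos u : ℝ) : ℂ) ^ 2) := by
      rw [hx]
      push_cast
      ring
    rw [e1, e2] at h
    refine h.trans ?_
    have h3 : |x| ^ 3 ≤ (2 * B) ^ 3 := pow_le_pow_left₀ (abs_nonneg _) hxabs 3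
    calc kA502 a * |x| ^ 3 ≤ kA502 a * (2 * B) ^ 3 :=
          mul_le_mul_of_nonneg_left h3 (kA_nonneg502 a)
      _ = 8 * kA502 a * B ^ 3 := by ring
  -- integrate
  have hcont := continuous_integrand502 a t
  have hI1 : IntervalIntegrable
      (fun u : ℝ => (((Real.cosh t + Real.sinh t * Real.cos u : ℝ) : ℂ)) ^ a) volume 0
      (2 * Real.pi) := hcont.intervalIntegrable _ _
  have hI2 : IntervalIntegrable
      (fun u : ℝ => ((1 + a * A + (a ^ 2 - a) * (A : ℂ) ^ 2 / 2)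
          + (a * B + (a ^ 2 - a) * A * B) * ((Real.cos u : ℝ) : ℂ)
          + ((a ^ 2 - a) * (B : ℂ) ^ 2 / 2) * ((Real.cos u : ℝ) : ℂ) ^ 2)) volume 0
      (2 * Real.pi) :=
    Continuous.intervalIntegrable (by fun_prop) _ _
  have hint := intervalIntegral.norm_integral_le_of_norm_le_const
    (a := (0 : ℝ)) (b := 2 * Real.pi) (fun u _ => hpt u)
  rw [intervalIntegral.integral_sub hI1 hI2, integral_poly_cos502] at hint
  have hpi : 0 < Real.pi := Real.pi_pos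
  have habs : |2 * Real.pi - 0| = 2 * Real.pi := by
    rw [sub_zero, abs_of_pos (by positivity)]
  rw [habs] at hint
  -- assemble
  have hAexact : (A : ℂ) = (B : ℂ) ^ 2 / 2 - (A : ℂ) ^ 2 / 2 := by
    have : A = B ^ 2 / 2 - A ^ 2 / 2 := by rw [hAB]; ring
    exact_mod_cast this
  have hpiC : ((Real.pi : ℝ) : ℂ) ≠ 0 := by exact_mod_cast hpi.ne'
  have hsplit : sphP502 s t - 1 - (s ^ 2 - 1 / 4) * ((B : ℝ) : ℂ) ^ 2 / 4
      = ((1 / (2 * Real.pi) : ℝ) : ℂ) *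
          ((∫ u in (0 : ℝ)..(2 * Real.pi),
            (((Real.cosh t + Real.sinh t * Real.cos u : ℝ) : ℂ)) ^ a)
          - (2 * Real.pi * (1 + a * A + (a ^ 2 - a) * (A : ℂ) ^ 2 / 2)
            + Real.pi * ((a ^ 2 - a) * (B : ℂ) ^ 2 / 2)))
        + (a ^ 2 - 2 * a) * (A : ℂ) ^ 2 / 2 := by
    unfold sphP502
    rw [← ha]
    have hs : s = a + 1 / 2 := by rw [ha]; ring
    have hc : ((1 / (2 * Real.pi) : ℝ) : ℂ) * (2 * (Real.pi : ℂ)) = 1 := by
      push_cast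
      field_simp
    generalize (∫ u in (0 : ℝ)..(2 * Real.pi),
      (((Real.cosh t + Real.sinh t * Real.cos u : ℝ) : ℂ)) ^ a) = I
    generalize ((1 / (2 * Real.pi) : ℝ) : ℂ) = c at hc ⊢
    rw [hs]
    linear_combination ((1 + a * A + (a ^ 2 - a) * (A : ℂ) ^ 2 / 2)
      + ((a ^ 2 - a) * (B : ℂ) ^ 2 / 2) / 2) * hc + a * hAexact
  rw [hsplit]
  have hn1 : ‖((1 / (2 * Real.pi) : ℝ) : ℂ) *
          ((∫ u in (0 : ℝ)..(2 * Real.pi),
            (((Real.cosh t + Real.sinh t * Real.cos u : ℝ) : ℂ)) ^ a)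
          - (2 * Real.pi * (1 + a * A + (a ^ 2 - a) * (A : ℂ) ^ 2 / 2)
            + Real.pi * ((a ^ 2 - a) * (B : ℂ) ^ 2 / 2)))‖ ≤ 8 * kA502 a * B ^ 3 := by
    rw [norm_mul, Complex.norm_real, Real.norm_eq_abs, abs_of_pos (by positivity)]
    calc 1 / (2 * Real.pi) * ‖(∫ u in (0 : ℝ)..(2 * Real.pi),
            (((Real.cosh t + Real.sinh t * Real.cos u : ℝ) : ℂ)) ^ a)
          - (2 * Real.pi * (1 + a * A + (a ^ 2 - a) * (A : ℂ) ^ 2 / 2)
            + Real.pi * ((a ^ 2 - a) * (B : ℂ) ^ 2 / 2))‖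
        ≤ 1 / (2 * Real.pi) * (8 * kA502 a * B ^ 3 * (2 * Real.pi)) :=
          mul_le_mul_of_nonneg_left hint (by positivity)
      _ = 8 * kA502 a * B ^ 3 := by field_simp
  have hn2 : ‖(a ^ 2 - 2 * a) * (A : ℂ) ^ 2 / 2‖ ≤ ‖a ^ 2 - 2 * a‖ * B ^ 3 := by
    rw [norm_div, norm_mul, norm_pow, Complex.norm_real, Real.norm_eq_abs, abs_of_nonneg hA0]
    have : ‖(2 : ℂ)‖ = 2 := by simp
    rw [this]
    have h1 : A ^ 2 ≤ B ^ 3 := by
      have h2 : A ^ 2 ≤ (B ^ 2 / 2) ^ 2 := pow_le_pow_left₀ hA0 hA2 2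
      have h3 : (B ^ 2 / 2) ^ 2 = B ^ 3 * (B / 4) := by ring
      have h4 : B ^ 3 * (B / 4) ≤ B ^ 3 * 1 :=
        mul_le_mul_of_nonneg_left (by linarith) (by positivity)
      linarith
    calc ‖a ^ 2 - 2 * a‖ * A ^ 2 / 2 ≤ ‖a ^ 2 - 2 * a‖ * A ^ 2 := by
          have : 0 ≤ ‖a ^ 2 - 2 * a‖ * A ^ 2 := by positivity
          linarith
      _ ≤ ‖a ^ 2 - 2 * a‖ * B ^ 3 := mul_le_mul_of_nonneg_left h1 (norm_nonneg _)
  calc ‖((1 / (2 * Real.pi) : ℝ) : ℂ) *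
          ((∫ u in (0 : ℝ)..(2 * Real.pi),
            (((Real.cosh t + Real.sinh t * Real.cos u : ℝ) : ℂ)) ^ a)
          - (2 * Real.pi * (1 + a * A + (a ^ 2 - a) * (A : ℂ) ^ 2 / 2)
            + Real.pi * ((a ^ 2 - a) * (B : ℂ) ^ 2 / 2)))
        + (a ^ 2 - 2 * a) * (A : ℂ) ^ 2 / 2‖
      ≤ 8 * kA502 a * B ^ 3 + ‖a ^ 2 - 2 * a‖ * B ^ 3 :=
        (norm_add_le _ _).trans (add_le_add hn1 hn2)
    _ = kP502 s * B ^ 3 := by unfold kP502; rw [← ha]; ring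

/-! ## C. The parameter of a real bounded `P_s` -/

theorem param_key502 (s : ℂ)
    (h : ∀ t : ℝ, 0 < t → (sphP502 s t).im = 0 ∧ ‖sphP502 s t‖ ≤ 1)
    (B : ℝ) (hB : 0 < B) (hBle : B ≤ bP502 s) :
    |(s ^ 2 - 1 / 4).im| ≤ 4 * kP502 s * B ∧ (s ^ 2 - 1 / 4).re ≤ 4 * kP502 s * B := by
  have ht : 0 < Real.arsinh B := Real.arsinh_pos_iff.2 hB
  have hsinh : Real.sinh (Real.arsinh B) = B := Real.sinh_arsinh B
  have hexp := sphP_expand502 s (Real.arsinh B) ht (by rw [hsinh]; exact hBle)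
  rw [hsinh] at hexp
  obtain ⟨him, hnorm⟩ := h (Real.arsinh B) ht
  generalize sphP502 s (Real.arsinh B) = P at hexp him hnorm
  generalize s ^ 2 - 1 / 4 = κ at hexp ⊢
  have e : κ * ((B : ℝ) : ℂ) ^ 2 / 4 = ((B ^ 2 / 4 : ℝ) : ℂ) * κ := by
    push_cast
    ring
  rw [e] at hexp
  have hDim : (P - 1 - ((B ^ 2 / 4 : ℝ) : ℂ) * κ).im = -(B ^ 2 / 4 * κ.im) := by
    rw [Complex.sub_im, Complex.sub_im, Complex.im_ofReal_mul, him, Complex.one_im]
    ring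
  have hDre : (P - 1 - ((B ^ 2 / 4 : ℝ) : ℂ) * κ).re = P.re - 1 - B ^ 2 / 4 * κ.re := by
    rw [Complex.sub_re, Complex.sub_re, Complex.re_ofReal_mul, Complex.one_re]
  have h1 := (Complex.abs_im_le_norm _).trans hexp
  have h2 := (Complex.abs_re_le_norm _).trans hexp
  rw [hDim, abs_neg, abs_mul, abs_of_pos (by positivity : (0 : ℝ) < B ^ 2 / 4)] at h1
  rw [hDre] at h2
  have hPre : P.re ≤ 1 := (Complex.re_le_norm P).trans hnorm
  have hB2 : 0 < B ^ 2 := by positivity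
  constructor
  · have h3 : |κ.im| * B ^ 2 ≤ (4 * kP502 s * B) * B ^ 2 := by nlinarith
    exact le_of_mul_le_mul_right h3 hB2
  · have h4 := (abs_le.1 h2).1
    have h3 : κ.re * B ^ 2 ≤ (4 * kP502 s * B) * B ^ 2 := by nlinarith
    exact le_of_mul_le_mul_right h3 hB2

theorem small_of_forall502 (x C B₀ : ℝ) (hC : 0 ≤ C) (hB₀ : 0 < B₀)
    (h : ∀ B : ℝ, 0 < B → B ≤ B₀ → x ≤ 4 * C * B) : x ≤ 0 := by
  by_contra hx
  rw [not_le] at hx
  have h1 : 0 < x / (8 * C + 1) := by positivity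
  have h2 := h (min B₀ (x / (8 * C + 1))) (lt_min hB₀ h1) (min_le_left _ _)
  have h3 : 4 * C * min B₀ (x / (8 * C + 1)) ≤ 4 * C * (x / (8 * C + 1)) :=
    mul_le_mul_of_nonneg_left (min_le_right _ _) (by positivity)
  have h4 : 4 * C * (x / (8 * C + 1)) < x := by
    rw [mul_div_assoc', div_lt_iff₀ (by positivity)]
    nlinarith
  linarith

/-- If `P_s` is real and bounded by `1` on `(0, ∞)`, then `s² - 1/4` is real and `≤ 0`. -/
theorem param_of_bounded502 (s : ℂ)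
    (h : ∀ t : ℝ, 0 < t → (sphP502 s t).im = 0 ∧ ‖sphP502 s t‖ ≤ 1) :
    (s ^ 2 - 1 / 4).im = 0 ∧ (s ^ 2 - 1 / 4).re ≤ 0 := by
  constructor
  · have h1 := small_of_forall502 |(s ^ 2 - 1 / 4).im| (kP502 s) (bP502 s) (kP_nonneg502 s)
      (bP_pos502 s) (fun B hB hBle => (param_key502 s h B hB hBle).1)
    exact abs_eq_zero.1 (le_antisymm h1 (abs_nonneg _))
  · exact small_of_forall502 _ (kP502 s) (bP502 s) (kP_nonneg502 s)
      (bP_pos502 s) (fun B hB hBle => (param_key502 s h B hB hBle).2)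

/-! ## D. `R_ν` for `ν = 2 s`, `s ∈ iℝ ∪ [-1/2, 1/2]` -/

/-- `R_ν(d)` (the body of `T6.Inf.sphR`). -/
def sphR502 (ν : ℂ) (d : ℝ) : ℂ :=
  if d = 0 then 1
  else if ν = 0 then ((d / Real.sinh d : ℝ) : ℂ)
  else Complex.sinh (ν * (d : ℂ)) / (ν * ((Real.sinh d : ℝ) : ℂ))

theorem sinh_mul_le502 (ν d : ℝ) (hν0 : 0 ≤ ν) (hν1 : ν ≤ 1) (hd : 0 ≤ d) :
    Real.sinh (ν * d) ≤ ν * Real.sinh d := by
  have hmono : MonotoneOn (fun x : ℝ => ν * Real.sinh x - Real.sinh (ν * x)) (Set.Ici 0) := by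
    apply monotoneOn_of_deriv_nonneg (convex_Ici 0)
    · exact Continuous.continuousOn (by fun_prop)
    · exact Differentiable.differentiableOn (by fun_prop)
    · intro x hx
      have hderiv : deriv (fun x : ℝ => ν * Real.sinh x - Real.sinh (ν * x)) x
          = ν * Real.cosh x - Real.cosh (ν * x) * ν := by
        have h1 : HasDerivAt (fun x : ℝ => ν * Real.sinh x) (ν * Real.cosh x) x :=
          (Real.hasDerivAt_sinh x).const_mul ν
        have h2 : HasDerivAt (fun x : ℝ => Real.sinh (ν * x)) (Real.cosh (ν * x) * ν) x := by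
          have h3 : HasDerivAt (fun x : ℝ => ν * x) ν x := by
            simpa using (hasDerivAt_id x).const_mul ν
          exact (Real.hasDerivAt_sinh (ν * x)).comp x h3
        exact (h1.sub h2).deriv
      rw [hderiv]
      have hc : Real.cosh (ν * x) ≤ Real.cosh x := by
        rw [Real.cosh_le_cosh, abs_mul, abs_of_nonneg hν0]
        have : 0 ≤ |x| := abs_nonneg x
        nlinarith
      nlinarith
  have h := hmono (Set.mem_Ici.2 le_rfl) (Set.mem_Ici.2 hd) hd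
  simp only [Real.sinh_zero, mul_zero, sub_zero] at h
  linarith

theorem abs_sinh_mul_le502 (ν d : ℝ) (hν : |ν| ≤ 1) (hd : 0 ≤ d) :
    |Real.sinh (ν * d)| ≤ |ν| * Real.sinh d := by
  rw [Real.abs_sinh, abs_mul, abs_of_nonneg hd]
  exact sinh_mul_le502 |ν| d (abs_nonneg _) hν hd

/-- `R_{2s}` is real and bounded by `1` when `s² - 1/4` is real and `≤ 0`. -/
theorem sphR_bounded502 (s : ℂ) (h1 : (s ^ 2 - 1 / 4).im = 0) (h2 : (s ^ 2 - 1 / 4).re ≤ 0)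
    (d : ℝ) (hd : 0 < d) :
    (sphR502 (2 * s) d).im = 0 ∧ ‖sphR502 (2 * s) d‖ ≤ 1 := by
  have hsd : 0 < Real.sinh d := Real.sinh_pos_iff.2 hd
  have hdle : d ≤ Real.sinh d := Real.self_le_sinh_iff.2 hd.le
  have him : s.re * s.im = 0 := by
    have : (s ^ 2 - 1 / 4).im = 2 * (s.re * s.im) := by
      simp [pow_two, Complex.sub_im, Complex.mul_im]
      ring
    rw [this] at h1
    linarith
  have hre : s.re ^ 2 - s.im ^ 2 ≤ 1 / 4 := by
    have : (s ^ 2 - 1 / 4).re = s.re ^ 2 - s.im ^ 2 - 1 / 4 := by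
      simp [pow_two, Complex.sub_re, Complex.mul_re]
    rw [this] at h2
    linarith
  unfold sphR502
  rw [if_neg hd.ne']
  by_cases hs : s = 0
  · rw [if_pos (by rw [hs, mul_zero])]
    refine ⟨Complex.ofReal_im _, ?_⟩
    rw [Complex.norm_real, Real.norm_eq_abs, abs_of_pos (div_pos hd hsd), div_le_one hsd]
    exact hdle
  · have h2s : (2 : ℂ) * s ≠ 0 := mul_ne_zero two_ne_zero hs
    rw [if_neg h2s]
    rcases mul_eq_zero.1 him with hσ | hτ
    · -- `s = i τ`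
      have hsI : s = ((s.im : ℝ) : ℂ) * Complex.I := by
        apply Complex.ext <;> simp [hσ]
      have hτ0 : s.im ≠ 0 := by
        intro h0
        apply hs
        rw [hsI, h0]
        simp
      set τ : ℝ := s.im with hτdef
      have e1 : (2 : ℂ) * s * (d : ℂ) = (((2 * τ * d : ℝ)) : ℂ) * Complex.I := by
        rw [hsI]
        push_cast
        ring
      have e2 : Complex.sinh ((2 : ℂ) * s * (d : ℂ)) / ((2 : ℂ) * s * ((Real.sinh d : ℝ) : ℂ))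
          = ((Real.sin (2 * τ * d) / (2 * τ * Real.sinh d) : ℝ) : ℂ) := by
        rw [e1, Complex.sinh_mul_I, ← Complex.ofReal_sin]
        rw [hsI]
        have hI : Complex.I ≠ 0 := Complex.I_ne_zero
        have hτC : ((τ : ℝ) : ℂ) ≠ 0 := by exact_mod_cast hτ0
        have hsC : ((Real.sinh d : ℝ) : ℂ) ≠ 0 := by exact_mod_cast hsd.ne'
        push_cast
        field_simp
      rw [e2]
      refine ⟨Complex.ofReal_im _, ?_⟩
      rw [Complex.norm_real, Real.norm_eq_abs, abs_div, abs_mul, abs_mul, abs_of_pos hsd,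
        div_le_one (by positivity)]
      calc |Real.sin (2 * τ * d)| ≤ |2 * τ * d| := Real.abs_sin_le_abs
        _ = |2| * |τ| * d := by rw [abs_mul, abs_mul, abs_of_pos hd]
        _ ≤ |2| * |τ| * Real.sinh d := mul_le_mul_of_nonneg_left hdle (by positivity)
    · -- `s = σ` real
      have hsR : s = ((s.re : ℝ) : ℂ) := by
        apply Complex.ext <;> simp [hτ]
      have hσ0 : s.re ≠ 0 := by
        intro h0
        apply hs
        rw [hsR, h0]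
        simp
      set σ : ℝ := s.re with hσdef
      have hσ2 : σ ^ 2 ≤ 1 / 4 := by
        rw [hτ] at hre
        simpa using hre
      have hσ1 : |2 * σ| ≤ 1 := by
        rw [abs_le]
        constructor <;> nlinarith
      have e1 : (2 : ℂ) * s * (d : ℂ) = (((2 * σ * d : ℝ)) : ℂ) := by
        rw [hsR]
        push_cast
        ring
      have e2 : Complex.sinh ((2 : ℂ) * s * (d : ℂ)) / ((2 : ℂ) * s * ((Real.sinh d : ℝ) : ℂ))
          = ((Real.sinh (2 * σ * d) / (2 * σ * Real.sinh d) : ℝ) : ℂ) := by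
        rw [e1, ← Complex.ofReal_sinh]
        rw [hsR]
        push_cast
        ring
      rw [e2]
      refine ⟨Complex.ofReal_im _, ?_⟩
      rw [Complex.norm_real, Real.norm_eq_abs, abs_div, abs_mul (2 * σ), abs_of_pos hsd,
        div_le_one (by positivity)]
      exact abs_sinh_mul_le502 (2 * σ) d hσ1 hd.le

/-- **T6inf.05, core.** -/
theorem upUnitary0_core502 (s : ℂ)
    (h : ∀ t : ℝ, 0 < t → (sphP502 s t).im = 0 ∧ ‖sphP502 s t‖ ≤ 1) (d : ℝ) (hd : 0 < d) :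
    (sphR502 (2 * s) d).im = 0 ∧ ‖sphR502 (2 * s) d‖ ≤ 1 := by
  obtain ⟨h1, h2⟩ := param_of_bounded502 s h
  exact sphR_bounded502 s h1 h2 d hd

end Fermat.Agent.LT.T6.Inf.H502

end
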