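import Mathlib
import Fermat.Agent.LT.T6.Inf.H502.UpCore

/-!
# Row LT, sub-tower T6inf, leaf T6inf.05 (helper502): weight `0` in the vocabulary of `SpecArch`

OFF-MAIN.  Mathlib only.

`sphR0 s (cosh t) = (1/2π) ∫₀^{2π} (cosh t - cos u sinh t)^{-s - 1/2} du = P_{-s}(t)` (shift
`u ↦ u + π`).
-/

set_option autoImplicit false

open Real MeasureTheory

noncomputable section

namespace Fermat.Agent.LT.T6.Inf.H502

theorem sqrt_cosh_sq502 (t : ℝ) (ht : 0 ≤ t) : Real.sqrt (Real.cosh t ^ 2 - 1) = Real.sinh t := by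
  have h : Real.cosh t ^ 2 - 1 = Real.sinh t ^ 2 := by rw [Real.cosh_sq]; ring
  rw [h, Real.sqrt_sq (Real.sinh_nonneg_iff.2 ht)]

/-- The body of `T6.sphR0`. -/
def sphR0_502 (s : ℂ) (ρ : ℝ) : ℂ :=
  ((1 / (2 * Real.pi) : ℝ) : ℂ) * ∫ u in (0 : ℝ)..(2 * Real.pi),
    ((ρ - Real.cos u * Real.sqrt (ρ ^ 2 - 1) : ℝ) : ℂ) ^ (-s - 1 / 2)

theorem integral_neg_cos502 (G : ℝ → ℂ) :
    ∫ u in (0 : ℝ)..(2 * Real.pi), G (-Real.cos u)
      = ∫ u in (0 : ℝ)..(2 * Real.pi), G (Real.cos u) := by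
  have h1 : (fun u : ℝ => G (-Real.cos u))
      = fun u => (fun v => G (Real.cos v)) (u + Real.pi) := by
    ext u
    simp [Real.cos_add_pi]
  rw [h1, intervalIntegral.integral_comp_add_right (fun v => G (Real.cos v)) Real.pi]
  have hper : Function.Periodic (fun v : ℝ => G (Real.cos v)) (2 * Real.pi) := by
    intro v
    simp [Real.cos_add_two_pi]
  have h2 := hper.intervalIntegral_add_eq (0 + Real.pi) 0
  have e1 : (0 : ℝ) + Real.pi + 2 * Real.pi = 2 * Real.pi + Real.pi := by ring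
  have e2 : (0 : ℝ) + 2 * Real.pi = 2 * Real.pi := by ring
  rw [e1, e2] at h2
  exact h2

theorem sphR0_eq_sphP502 (s : ℂ) (t : ℝ) (ht : 0 < t) :
    sphR0_502 s (Real.cosh t) = sphP502 (-s) t := by
  unfold sphR0_502 sphP502
  rw [sqrt_cosh_sq502 t ht.le]
  congr 1
  have h := integral_neg_cos502
    (fun k => ((Real.cosh t + Real.sinh t * k : ℝ) : ℂ) ^ (-s - 1 / 2))
  rw [← h]
  refine intervalIntegral.integral_congr fun u _ => ?_
  show ((Real.cosh t - Real.cos u * Real.sinh t : ℝ) : ℂ) ^ (-s - 1 / 2)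
    = ((Real.cosh t + Real.sinh t * (-Real.cos u) : ℝ) : ℂ) ^ (-s - 1 / 2)
  congr 2
  ring

/-- Weight `0`: if `sphR0 s (cosh t)` is real and bounded by `1` on `(0, ∞)`, then `s² - 1/4` is
real and `≤ 0`. -/
theorem param0_of_bounded502 (s : ℂ)
    (h : ∀ t : ℝ, 0 < t →
      (sphR0_502 s (Real.cosh t)).im = 0 ∧ ‖sphR0_502 s (Real.cosh t)‖ ≤ 1) :
    (s ^ 2 - 1 / 4).im = 0 ∧ (s ^ 2 - 1 / 4).re ≤ 0 := by
  have h' := param_of_bounded502 (-s) (fun t ht => by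
    rw [← sphR0_eq_sphP502 s t ht]
    exact h t ht)
  rwa [neg_sq] at h'

end Fermat.Agent.LT.T6.Inf.H502

end
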