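import Mathlib
import Fermat.Agent.LT.T6.Inf.H502.UpShift

/-!
# Row LT, sub-tower T6inf, leaf T6inf.05 (helper502): the closed form of `sphC`

OFF-MAIN.  Mathlib only.

`sphC ν (cosh d) = (1/2) ∫_{-1}^{1} (cosh d + x sinh d)^{-1-ν} dx = sinh (ν d) / (ν sinh d)`
(`= d / sinh d` for `ν = 0`), for `d > 0` (`sphC_eq502`).
-/

set_option autoImplicit false

open Real MeasureTheory

noncomputable section

namespace Fermat.Agent.LT.T6.Inf.H502

/-- The body of `T6.sphC`. -/
def sphC502 (ν : ℂ) (ρ : ℝ) : ℂ :=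
  (1 / 2 : ℂ) * ∫ x in (-1 : ℝ)..1, ((ρ + x * Real.sqrt (ρ ^ 2 - 1) : ℝ) : ℂ) ^ (-1 - ν)

theorem base_pos502 (d : ℝ) (x : ℝ) (hx : x ∈ Set.uIcc (-1 : ℝ) 1) :
    0 < Real.cosh d + x * Real.sinh d := by
  rw [Set.uIcc_of_le (by norm_num : (-1 : ℝ) ≤ 1)] at hx
  have h1 : |x * Real.sinh d| ≤ |Real.sinh d| := by
    rw [abs_mul]
    have : |x| ≤ 1 := abs_le.2 hx
    calc |x| * |Real.sinh d| ≤ 1 * |Real.sinh d| :=
          mul_le_mul_of_nonneg_right this (abs_nonneg _)
      _ = |Real.sinh d| := one_mul _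
  have h2 : |Real.sinh d| < Real.cosh d := by
    rw [abs_lt]
    constructor
    · have := Real.cosh_add_sinh d
      have := Real.exp_pos d
      linarith
    · exact Real.sinh_lt_cosh d
  have h3 := neg_abs_le (x * Real.sinh d)
  linarith

theorem cpow_exp502 (d : ℝ) (c : ℂ) : ((Real.exp d : ℝ) : ℂ) ^ c = Complex.exp (d * c) := by
  have hne : ((Real.exp d : ℝ) : ℂ) ≠ 0 := by
    exact_mod_cast (Real.exp_pos d).ne'
  rw [Complex.cpow_def_of_ne_zero hne, ← Complex.ofReal_log (Real.exp_pos d).le, Real.log_exp]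

theorem integral_cpow_affine502 (ν : ℂ) (hν : ν ≠ 0) (d : ℝ) (hd : 0 < d) :
    ∫ x in (-1 : ℝ)..1, ((Real.cosh d + x * Real.sinh d : ℝ) : ℂ) ^ (-1 - ν)
      = 2 * Complex.sinh (ν * d) / (ν * ((Real.sinh d : ℝ) : ℂ)) := by
  have hS : 0 < Real.sinh d := Real.sinh_pos_iff.2 hd
  have hSC : ((Real.sinh d : ℝ) : ℂ) ≠ 0 := by exact_mod_cast hS.ne'
  have hr : (-1 - ν) ≠ -1 := by
    intro h
    apply hν
    have : ν = -1 - (-1 - ν) := by ring
    rw [this, h]
    ring
  have hderiv : ∀ x ∈ Set.uIcc (-1 : ℝ) 1,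
      HasDerivAt (fun y : ℝ => ((Real.cosh d + y * Real.sinh d : ℝ) : ℂ) ^ (-1 - ν + 1)
          / (-1 - ν + 1) / ((Real.sinh d : ℝ) : ℂ))
        (((Real.cosh d + x * Real.sinh d : ℝ) : ℂ) ^ (-1 - ν)) x := by
    intro x hx
    have hb := base_pos502 d x hx
    have h1 := hasDerivAt_ofReal_cpow_const' hb.ne' hr
    have h2 : HasDerivAt (fun y : ℝ => Real.cosh d + y * Real.sinh d) (Real.sinh d) x := by
      have := ((hasDerivAt_id x).mul_const (Real.sinh d)).const_add (Real.cosh d)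
      simpa using this
    have h3 := HasDerivAt.scomp x h1 h2
    have h4 := h3.div_const ((Real.sinh d : ℝ) : ℂ)
    have e : (Real.sinh d • ((Real.cosh d + x * Real.sinh d : ℝ) : ℂ) ^ (-1 - ν))
        / ((Real.sinh d : ℝ) : ℂ) = ((Real.cosh d + x * Real.sinh d : ℝ) : ℂ) ^ (-1 - ν) := by
      rw [Complex.real_smul]
      field_simp
    rw [e] at h4
    exact h4
  have hcont : ContinuousOn (fun x : ℝ =>
      ((Real.cosh d + x * Real.sinh d : ℝ) : ℂ) ^ (-1 - ν)) (Set.uIcc (-1 : ℝ) 1) := by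
    have hc : Continuous fun x : ℝ => ((Real.cosh d + x * Real.sinh d : ℝ) : ℂ) := by
      fun_prop
    refine ContinuousOn.cpow hc.continuousOn continuousOn_const ?_
    intro x hx
    exact Complex.ofReal_mem_slitPlane.2 (base_pos502 d x hx)
  rw [intervalIntegral.integral_eq_sub_of_hasDerivAt hderiv hcont.intervalIntegrable]
  have e1 : Real.cosh d + 1 * Real.sinh d = Real.exp d := by
    rw [one_mul, Real.cosh_add_sinh]
  have e2 : Real.cosh d + -1 * Real.sinh d = Real.exp (-d) := by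
    rw [neg_one_mul, ← sub_eq_add_neg, Real.cosh_sub_sinh]
  have e3 : (-1 - ν + 1) = -ν := by ring
  simp only [e1, e2, e3, cpow_exp502]
  rw [Complex.sinh]
  have e4 : ((d : ℝ) : ℂ) * -ν = -(ν * d) := by ring
  have e5 : (((-d : ℝ)) : ℂ) * -ν = ν * d := by push_cast; ring
  rw [e4, e5]
  field_simp
  ring

theorem integral_inv_affine502 (d : ℝ) (hd : 0 < d) :
    ∫ x in (-1 : ℝ)..1, (Real.cosh d + x * Real.sinh d)⁻¹ = 2 * d / Real.sinh d := by
  have hS : 0 < Real.sinh d := Real.sinh_pos_iff.2 hd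
  have hderiv : ∀ x ∈ Set.uIcc (-1 : ℝ) 1,
      HasDerivAt (fun y : ℝ => Real.log (Real.cosh d + y * Real.sinh d) / Real.sinh d)
        ((Real.cosh d + x * Real.sinh d)⁻¹) x := by
    intro x hx
    have hb := base_pos502 d x hx
    have h2 : HasDerivAt (fun y : ℝ => Real.cosh d + y * Real.sinh d) (Real.sinh d) x := by
      have := ((hasDerivAt_id x).mul_const (Real.sinh d)).const_add (Real.cosh d)
      simpa using this
    have h3 := (h2.log hb.ne').div_const (Real.sinh d)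
    have e : Real.sinh d / (Real.cosh d + x * Real.sinh d) / Real.sinh d
        = (Real.cosh d + x * Real.sinh d)⁻¹ := by
      field_simp
    rw [e] at h3
    exact h3
  have hcont : ContinuousOn (fun x : ℝ => (Real.cosh d + x * Real.sinh d)⁻¹)
      (Set.uIcc (-1 : ℝ) 1) := by
    have hc : Continuous fun x : ℝ => Real.cosh d + x * Real.sinh d := by fun_prop
    exact hc.continuousOn.inv₀ fun x hx => (base_pos502 d x hx).ne'
  rw [intervalIntegral.integral_eq_sub_of_hasDerivAt hderiv hcont.intervalIntegrable]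
  have e1 : Real.cosh d + 1 * Real.sinh d = Real.exp d := by
    rw [one_mul, Real.cosh_add_sinh]
  have e2 : Real.cosh d + -1 * Real.sinh d = Real.exp (-d) := by
    rw [neg_one_mul, ← sub_eq_add_neg, Real.cosh_sub_sinh]
  rw [e1, e2, Real.log_exp, Real.log_exp]
  field_simp
  ring

/-- **The closed form of `sphC`.** -/
theorem sphC_eq502 (ν : ℂ) (d : ℝ) (hd : 0 < d) : sphC502 ν (Real.cosh d) = sphR502 ν d := by
  have hS : 0 < Real.sinh d := Real.sinh_pos_iff.2 hd
  have hSC : ((Real.sinh d : ℝ) : ℂ) ≠ 0 := by exact_mod_cast hS.ne'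
  unfold sphC502 sphR502
  rw [sqrt_cosh_sq502 d hd.le, if_neg hd.ne']
  by_cases hν : ν = 0
  · rw [if_pos hν, hν]
    have e : (fun x : ℝ => ((Real.cosh d + x * Real.sinh d : ℝ) : ℂ) ^ (-1 - (0 : ℂ)))
        = fun x : ℝ => (((Real.cosh d + x * Real.sinh d)⁻¹ : ℝ) : ℂ) := by
      ext x
      rw [sub_zero, Complex.cpow_neg_one, Complex.ofReal_inv]
    rw [e, intervalIntegral.integral_ofReal, integral_inv_affine502 d hd]
    push_cast
    field_simp
  · rw [if_neg hν, integral_cpow_affine502 ν hν d hd]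
    field_simp

end Fermat.Agent.LT.T6.Inf.H502

end
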