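import Mathlib
import Fermat.Agent.LT.T6.Inf.H502.UpShift

/-!
# Row LT, sub-tower T6inf, leaf T6inf.05 (helper502): weight `±1`, expansion at `t = 0`

OFF-MAIN.  Mathlib only.

`q(a, τ) = (1/2π) ∫₀^{2π} (cosh τ - cos u sinh τ) (cosh 2τ - cos u sinh 2τ)^a du`
(`sphR1 s (cosh t) = q(-s-1, t/2)`).

* `sphQ_expand502`: `‖q(a, τ) - 1 - ((a+1)² - 1/2) sinh² τ‖ ≤ C sinh³ τ` for `sinh τ` small.
* `paramQ_im502`: if `sphR1 s (cosh t)` is real for all `t > 0`, then `s²` is real.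
-/

set_option autoImplicit false

open Real MeasureTheory

noncomputable section

namespace Fermat.Agent.LT.T6.Inf.H502

/-- The body of `T6.sphR1`. -/
def sphR1_502 (s : ℂ) (ρ : ℝ) : ℂ :=
  ((1 / (2 * Real.pi) : ℝ) : ℂ) * ∫ u in (0 : ℝ)..(2 * Real.pi),
    ((Real.sqrt ((ρ + 1) / 2) - Real.cos u * Real.sqrt ((ρ - 1) / 2) : ℝ) : ℂ) *
      ((ρ - Real.cos u * Real.sqrt (ρ ^ 2 - 1) : ℝ) : ℂ) ^ (-s - 1)

/-- `q(a, τ)`. -/
def sphQ502 (a : ℂ) (τ : ℝ) : ℂ :=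
  ((1 / (2 * Real.pi) : ℝ) : ℂ) * ∫ u in (0 : ℝ)..(2 * Real.pi),
    ((Real.cosh τ - Real.cos u * Real.sinh τ : ℝ) : ℂ) *
      ((Real.cosh (2 * τ) - Real.cos u * Real.sinh (2 * τ) : ℝ) : ℂ) ^ a

theorem sqrt_half_add502 (τ : ℝ) : Real.sqrt ((Real.cosh (2 * τ) + 1) / 2) = Real.cosh τ := by
  have h : (Real.cosh (2 * τ) + 1) / 2 = Real.cosh τ ^ 2 := by
    rw [Real.cosh_two_mul, Real.cosh_sq τ]
    ring
  rw [h, Real.sqrt_sq (Real.cosh_pos τ).le]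

theorem sqrt_half_sub502 (τ : ℝ) (hτ : 0 ≤ τ) :
    Real.sqrt ((Real.cosh (2 * τ) - 1) / 2) = Real.sinh τ := by
  have h : (Real.cosh (2 * τ) - 1) / 2 = Real.sinh τ ^ 2 := by
    rw [Real.cosh_two_mul, Real.cosh_sq τ]
    ring
  rw [h, Real.sqrt_sq (Real.sinh_nonneg_iff.2 hτ)]

theorem sphR1_eq_sphQ502 (s : ℂ) (τ : ℝ) (hτ : 0 ≤ τ) :
    sphR1_502 s (Real.cosh (2 * τ)) = sphQ502 (-s - 1) τ := by
  unfold sphR1_502 sphQ502
  rw [sqrt_half_add502, sqrt_half_sub502 τ hτ, sqrt_cosh_sq502 (2 * τ) (by linarith)]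

theorem integral_poly3_cos502 (c₀ c₁ c₂ c₃ : ℂ) :
    ∫ u in (0 : ℝ)..(2 * Real.pi),
        (c₀ + c₁ * ((Real.cos u : ℝ) : ℂ) + c₂ * ((Real.cos u : ℝ) : ℂ) ^ 2
          + c₃ * ((Real.cos u : ℝ) : ℂ) ^ 3)
      = 2 * Real.pi * c₀ + Real.pi * c₂ := by
  have h3 : IntervalIntegrable (fun u : ℝ => c₀ + c₁ * ((Real.cos u : ℝ) : ℂ)
      + c₂ * ((Real.cos u : ℝ) : ℂ) ^ 2) volume 0 (2 * Real.pi) :=
    Continuous.intervalIntegrable (by fun_prop) _ _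
  have h4 : IntervalIntegrable (fun u : ℝ => c₃ * ((Real.cos u : ℝ) : ℂ) ^ 3) volume 0
      (2 * Real.pi) :=
    Continuous.intervalIntegrable (by fun_prop) _ _
  have e3 : ∫ u in (0 : ℝ)..(2 * Real.pi), ((Real.cos u : ℝ) : ℂ) ^ 3 = 0 := by
    have : (fun u : ℝ => ((Real.cos u : ℝ) : ℂ) ^ 3)
        = fun u => (((Real.cos u) ^ 3 : ℝ) : ℂ) := by
      ext u
      push_cast
      rfl
    rw [this, intervalIntegral.integral_ofReal, integral_cos_pow_three]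
    simp
  rw [intervalIntegral.integral_add h3 h4, integral_poly_cos502,
    intervalIntegral.integral_const_mul, e3, mul_zero, add_zero]

/-- The constant of the expansion of `q`. -/
def kQ502 (a : ℂ) : ℝ := 54 * kA502 a + 1 + 2 * ‖a‖ + 12 * ‖a ^ 2 - a‖

theorem kQ_nonneg502 (a : ℂ) : 0 ≤ kQ502 a := by
  unfold kQ502
  have := kA_nonneg502 a
  positivity

/-- The radius of the expansion of `q`. -/
def bQ502 (a : ℂ) : ℝ := min (1 / 10) (1 / (6 * ‖a‖ + 1))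

theorem bQ_pos502 (a : ℂ) : 0 < bQ502 a := by
  unfold bQ502
  apply lt_min (by norm_num)
  positivity

section Abs

variable (a : ℂ) (c h : ℝ)

/-- The polynomial part of the integrand, as a polynomial in `k = cos u`. -/
def polyQ502 (k : ℂ) : ℂ :=
  (c : ℂ) * (1 + a * (2 * (h : ℂ) ^ 2) + (a ^ 2 - a) * (2 * (h : ℂ) ^ 2) ^ 2 / 2)
    + ((c : ℂ) * (-(a * (2 * h * c)) - (a ^ 2 - a) * (2 * (h : ℂ) ^ 2) * (2 * h * c))
        - (h : ℂ) * (1 + a * (2 * (h : ℂ) ^ 2) + (a ^ 2 - a) * (2 * (h : ℂ) ^ 2) ^ 2 / 2)) * k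
    + ((c : ℂ) * ((a ^ 2 - a) * (2 * (h : ℂ) * c) ^ 2 / 2)
        - (h : ℂ) * (-(a * (2 * h * c)) - (a ^ 2 - a) * (2 * (h : ℂ) ^ 2) * (2 * h * c)))
      * k ^ 2
    + (-((h : ℂ) * ((a ^ 2 - a) * (2 * (h : ℂ) * c) ^ 2 / 2))) * k ^ 3

theorem polyQ_eq502 (k x : ℝ) (hx : x = 2 * h ^ 2 - k * (2 * h * c)) :
    polyQ502 a c h (k : ℂ)
      = ((c - k * h : ℝ) : ℂ) * (1 + a * x + (a ^ 2 - a) * (x : ℂ) ^ 2 / 2) := by
  unfold polyQ502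
  rw [hx]
  push_cast
  ring

theorem base_posQ502 (hc2 : c ^ 2 = h ^ 2 + 1) (hc1 : 1 ≤ c) (hpos : 0 < h) (k : ℝ)
    (hk : |k| ≤ 1) : 0 < 1 + 2 * h ^ 2 - k * (2 * h * c) := by
  have h1 : k * (2 * h * c) ≤ 2 * h * c := by
    have : k ≤ 1 := (abs_le.1 hk).2
    have h2 : 0 ≤ 2 * h * c := by positivity
    nlinarith
  have h2 : 0 < (c - h) ^ 2 := by
    apply pow_pos
    nlinarith
  nlinarith

theorem pointwiseQ502 (hc2 : c ^ 2 = h ^ 2 + 1) (hc1 : 1 ≤ c) (hpos : 0 < h)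
    (hB : h ≤ bQ502 a) (k : ℝ) (hk1 : |k| ≤ 1) :
    ‖((c - k * h : ℝ) : ℂ) * ((1 + 2 * h ^ 2 - k * (2 * h * c) : ℝ) : ℂ) ^ a
      - polyQ502 a c h (k : ℂ)‖ ≤ 54 * kA502 a * h ^ 3 := by
  have hh10 : h ≤ 1 / 10 := hB.trans (min_le_left _ _)
  have hha : h ≤ 1 / (6 * ‖a‖ + 1) := hB.trans (min_le_right _ _)
  have hcle : c ≤ 1 + h ^ 2 / 2 := by nlinarith
  obtain ⟨x, hx⟩ : ∃ x : ℝ, x = 2 * h ^ 2 - k * (2 * h * c) := ⟨_, rfl⟩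
  have hxabs : |x| ≤ 3 * h := by
    have h1 : |k * (2 * h * c)| ≤ 2 * h * c := by
      rw [abs_mul, abs_of_pos (by positivity : (0 : ℝ) < 2 * h * c)]
      calc |k| * (2 * h * c) ≤ 1 * (2 * h * c) :=
            mul_le_mul_of_nonneg_right hk1 (by positivity)
        _ = 2 * h * c := one_mul _
    rw [hx]
    calc |2 * h ^ 2 - k * (2 * h * c)| ≤ |2 * h ^ 2| + |k * (2 * h * c)| := abs_sub _ _
      _ ≤ 2 * h ^ 2 + 2 * h * c := by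
          rw [abs_of_pos (by positivity : (0 : ℝ) < 2 * h ^ 2)]
          linarith
      _ ≤ 3 * h := by nlinarith
  have hx12 : |x| ≤ 1 / 2 := by linarith
  have hxa : 2 * ‖a‖ * |x| ≤ 1 := by
    have h1 : 2 * ‖a‖ * |x| ≤ 2 * ‖a‖ * (3 * h) :=
      mul_le_mul_of_nonneg_left hxabs (by positivity)
    have h2 : (6 * ‖a‖ + 1) * h ≤ 1 := by
      have h3 : 0 < 6 * ‖a‖ + 1 := by positivity
      calc (6 * ‖a‖ + 1) * h ≤ (6 * ‖a‖ + 1) * (1 / (6 * ‖a‖ + 1)) :=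
            mul_le_mul_of_nonneg_left hha h3.le
        _ = 1 := by field_simp
    nlinarith
  have hexp := cpow_expand502 a x hx12 hxa
  have e1 : (1 + 2 * h ^ 2 - k * (2 * h * c) : ℝ) = 1 + x := by rw [hx]; ring
  rw [polyQ_eq502 a c h k x hx, e1, ← mul_sub, norm_mul]
  have hfac : ‖((c - k * h : ℝ) : ℂ)‖ ≤ 2 := by
    rw [Complex.norm_real, Real.norm_eq_abs]
    have h1 : |k * h| ≤ h := by
      rw [abs_mul, abs_of_pos hpos]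
      calc |k| * h ≤ 1 * h := mul_le_mul_of_nonneg_right hk1 hpos.le
        _ = h := one_mul _
    calc |c - k * h| ≤ |c| + |k * h| := abs_sub _ _
      _ ≤ c + h := by rw [abs_of_pos (by linarith)]; linarith
      _ ≤ 2 := by nlinarith
  have h3 : |x| ^ 3 ≤ (3 * h) ^ 3 := pow_le_pow_left₀ (abs_nonneg _) hxabs 3
  calc ‖((c - k * h : ℝ) : ℂ)‖ *
        ‖((1 + x : ℝ) : ℂ) ^ a - (1 + a * x + (a ^ 2 - a) * (x : ℂ) ^ 2 / 2)‖
      ≤ 2 * (kA502 a * |x| ^ 3) :=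
        mul_le_mul hfac hexp (norm_nonneg _) (by norm_num)
    _ ≤ 2 * (kA502 a * (3 * h) ^ 3) := by
        have := mul_le_mul_of_nonneg_left h3 (kA_nonneg502 a)
        linarith
    _ = 54 * kA502 a * h ^ 3 := by ring

theorem continuous_integrandQ502 (hc2 : c ^ 2 = h ^ 2 + 1) (hc1 : 1 ≤ c) (hpos : 0 < h) :
    Continuous fun u : ℝ => ((c - Real.cos u * h : ℝ) : ℂ) *
      ((1 + 2 * h ^ 2 - Real.cos u * (2 * h * c) : ℝ) : ℂ) ^ a := by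
  have h1 : Continuous fun u : ℝ => ((c - Real.cos u * h : ℝ) : ℂ) := by fun_prop
  have h2 : Continuous fun u : ℝ => ((1 + 2 * h ^ 2 - Real.cos u * (2 * h * c) : ℝ) : ℂ) := by
    fun_prop
  refine h1.mul (Continuous.cpow h2 continuous_const ?_)
  intro u
  exact Complex.ofReal_mem_slitPlane.2
    (base_posQ502 c h hc2 hc1 hpos (Real.cos u) (Real.abs_cos_le_one u))

theorem remainderQ502 (hc2 : c ^ 2 = h ^ 2 + 1) (hc1 : 1 ≤ c) (hpos : 0 < h)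
    (hh10 : h ≤ 1 / 10) :
    ‖(-(((c - 1 : ℝ) : ℂ) ^ 2 / 2) + 3 * a * (h : ℂ) ^ 2 * ((c - 1 : ℝ) : ℂ)
        + (a ^ 2 - a) * (h : ℂ) ^ 2 * (((c - 1 : ℝ) : ℂ) * ((c : ℂ) ^ 2 + c + 1))
        + 4 * (a ^ 2 - a) * (h : ℂ) ^ 4 * c)‖
      ≤ (1 + 2 * ‖a‖ + 12 * ‖a ^ 2 - a‖) * h ^ 3 := by
  obtain ⟨e, he⟩ : ∃ e : ℝ, e = c - 1 := ⟨_, rfl⟩
  rw [← he]
  have he0 : 0 ≤ e := by rw [he]; linarith
  have hee : e * (e + 2) = h ^ 2 := by rw [he]; nlinarith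
  have heh : e ≤ h ^ 2 / 2 := by nlinarith
  have hcle2 : c ≤ 2 := by nlinarith
  have hh3 : h ^ 4 ≤ h ^ 3 := by
    have : h ^ 4 = h ^ 3 * h := by ring
    rw [this]
    have h3 : 0 ≤ h ^ 3 := by positivity
    nlinarith
  have t1 : ‖-((e : ℂ) ^ 2 / 2)‖ ≤ h ^ 4 := by
    rw [norm_neg, norm_div, norm_pow, Complex.norm_real, Real.norm_eq_abs, abs_of_nonneg he0]
    have : ‖(2 : ℂ)‖ = 2 := by simp
    rw [this]
    have : e ^ 2 ≤ (h ^ 2 / 2) ^ 2 := pow_le_pow_left₀ he0 heh 2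
    nlinarith [sq_nonneg h]
  have t2 : ‖3 * a * (h : ℂ) ^ 2 * e‖ ≤ 2 * ‖a‖ * h ^ 4 := by
    rw [norm_mul, norm_mul, norm_mul, norm_pow, Complex.norm_real, Complex.norm_real,
      Real.norm_eq_abs, Real.norm_eq_abs, abs_of_nonneg he0, abs_of_pos hpos]
    have : ‖(3 : ℂ)‖ = 3 := by simp
    rw [this]
    have h1 : 0 ≤ ‖a‖ * h ^ 2 := by positivity
    nlinarith [mul_le_mul_of_nonneg_left heh h1]
  have t3 : ‖(a ^ 2 - a) * (h : ℂ) ^ 2 * (e * ((c : ℂ) ^ 2 + c + 1))‖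
      ≤ 4 * ‖a ^ 2 - a‖ * h ^ 4 := by
    have e1 : ((e : ℂ) * ((c : ℂ) ^ 2 + c + 1)) = ((e * (c ^ 2 + c + 1) : ℝ) : ℂ) := by
      push_cast
      ring
    rw [e1, norm_mul, norm_mul, norm_pow, Complex.norm_real, Complex.norm_real,
      Real.norm_eq_abs, Real.norm_eq_abs, abs_of_pos hpos,
      abs_of_nonneg (by positivity : (0 : ℝ) ≤ e * (c ^ 2 + c + 1))]
    have h1 : e * (c ^ 2 + c + 1) ≤ 4 * h ^ 2 := by nlinarith
    have h2 : 0 ≤ ‖a ^ 2 - a‖ * h ^ 2 := by positivity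
    nlinarith [mul_le_mul_of_nonneg_left h1 h2]
  have t4 : ‖4 * (a ^ 2 - a) * (h : ℂ) ^ 4 * c‖ ≤ 8 * ‖a ^ 2 - a‖ * h ^ 4 := by
    rw [norm_mul, norm_mul, norm_mul, norm_pow, Complex.norm_real, Complex.norm_real,
      Real.norm_eq_abs, Real.norm_eq_abs, abs_of_pos hpos, abs_of_pos (by linarith : 0 < c)]
    have : ‖(4 : ℂ)‖ = 4 := by simp
    rw [this]
    have h2 : 0 ≤ ‖a ^ 2 - a‖ * h ^ 4 := by positivity
    nlinarith [mul_le_mul_of_nonneg_left hcle2 h2]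
  have hsum : ‖(-((e : ℂ) ^ 2 / 2) + 3 * a * (h : ℂ) ^ 2 * e
          + (a ^ 2 - a) * (h : ℂ) ^ 2 * (e * ((c : ℂ) ^ 2 + c + 1))
          + 4 * (a ^ 2 - a) * (h : ℂ) ^ 4 * c)‖
      ≤ h ^ 4 + 2 * ‖a‖ * h ^ 4 + 4 * ‖a ^ 2 - a‖ * h ^ 4 + 8 * ‖a ^ 2 - a‖ * h ^ 4 := by
    refine (norm_add_le _ _).trans (add_le_add ?_ t4)
    refine (norm_add_le _ _).trans (add_le_add ?_ t3)
    exact (norm_add_le _ _).trans (add_le_add t1 t2)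
  have hk : 0 ≤ 1 + 2 * ‖a‖ + 12 * ‖a ^ 2 - a‖ := by positivity
  calc _ ≤ h ^ 4 + 2 * ‖a‖ * h ^ 4 + 4 * ‖a ^ 2 - a‖ * h ^ 4 + 8 * ‖a ^ 2 - a‖ * h ^ 4 := hsum
    _ = (1 + 2 * ‖a‖ + 12 * ‖a ^ 2 - a‖) * h ^ 4 := by ring
    _ ≤ (1 + 2 * ‖a‖ + 12 * ‖a ^ 2 - a‖) * h ^ 3 := mul_le_mul_of_nonneg_left hh3 hk

/-- The expansion, for abstract `c = cosh τ`, `h = sinh τ`. -/
theorem sphQ_expand_abs502 (hc2 : c ^ 2 = h ^ 2 + 1) (hc1 : 1 ≤ c) (hpos : 0 < h)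
    (hB : h ≤ bQ502 a) :
    ‖((1 / (2 * Real.pi) : ℝ) : ℂ) * (∫ u in (0 : ℝ)..(2 * Real.pi),
        ((c - Real.cos u * h : ℝ) : ℂ) *
          ((1 + 2 * h ^ 2 - Real.cos u * (2 * h * c) : ℝ) : ℂ) ^ a)
      - 1 - ((a + 1) ^ 2 - 1 / 2) * (h : ℂ) ^ 2‖ ≤ kQ502 a * h ^ 3 := by
  have hh10 : h ≤ 1 / 10 := hB.trans (min_le_left _ _)
  have hI1 := (continuous_integrandQ502 a c h hc2 hc1 hpos).intervalIntegrable
    (μ := volume) 0 (2 * Real.pi)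
  have hI2 : IntervalIntegrable (fun u : ℝ => polyQ502 a c h ((Real.cos u : ℝ) : ℂ)) volume 0
      (2 * Real.pi) := by
    unfold polyQ502
    exact Continuous.intervalIntegrable (by fun_prop) _ _
  have hint := intervalIntegral.norm_integral_le_of_norm_le_const
    (a := (0 : ℝ)) (b := 2 * Real.pi)
    (fun u _ => pointwiseQ502 a c h hc2 hc1 hpos hB (Real.cos u) (Real.abs_cos_le_one u))
  rw [intervalIntegral.integral_sub hI1 hI2] at hint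
  have hpoly : ∫ u in (0 : ℝ)..(2 * Real.pi), polyQ502 a c h ((Real.cos u : ℝ) : ℂ)
      = 2 * Real.pi *
          ((c : ℂ) * (1 + a * (2 * (h : ℂ) ^ 2) + (a ^ 2 - a) * (2 * (h : ℂ) ^ 2) ^ 2 / 2))
        + Real.pi * ((c : ℂ) * ((a ^ 2 - a) * (2 * (h : ℂ) * c) ^ 2 / 2)
          - (h : ℂ) * (-(a * (2 * h * c)) - (a ^ 2 - a) * (2 * (h : ℂ) ^ 2) * (2 * h * c))) := by
    unfold polyQ502
    exact integral_poly3_cos502 _ _ _ _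
  rw [hpoly] at hint
  have hpi : 0 < Real.pi := Real.pi_pos
  have habs : |2 * Real.pi - 0| = 2 * Real.pi := by
    rw [sub_zero, abs_of_pos (by positivity)]
  rw [habs] at hint
  have hcπ : ((1 / (2 * Real.pi) : ℝ) : ℂ) * (2 * (Real.pi : ℂ)) = 1 := by
    push_cast
    field_simp
  have hcπn : ‖((1 / (2 * Real.pi) : ℝ) : ℂ)‖ = 1 / (2 * Real.pi) := by
    rw [Complex.norm_real, Real.norm_eq_abs, abs_of_pos (by positivity)]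
  have hc2C : (c : ℂ) ^ 2 = (h : ℂ) ^ 2 + 1 := by exact_mod_cast hc2
  have hrem := remainderQ502 a c h hc2 hc1 hpos hh10
  generalize (∫ u in (0 : ℝ)..(2 * Real.pi),
    ((c - Real.cos u * h : ℝ) : ℂ) *
      ((1 + 2 * h ^ 2 - Real.cos u * (2 * h * c) : ℝ) : ℂ) ^ a) = I at hint ⊢
  generalize ((1 / (2 * Real.pi) : ℝ) : ℂ) = cπ at hcπ hcπn ⊢
  have hsplit : cπ * I - 1 - ((a + 1) ^ 2 - 1 / 2) * (h : ℂ) ^ 2
      = cπ * (I - (2 * Real.pi *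
          ((c : ℂ) * (1 + a * (2 * (h : ℂ) ^ 2) + (a ^ 2 - a) * (2 * (h : ℂ) ^ 2) ^ 2 / 2))
        + Real.pi * ((c : ℂ) * ((a ^ 2 - a) * (2 * (h : ℂ) * c) ^ 2 / 2)
          - (h : ℂ) * (-(a * (2 * h * c)) - (a ^ 2 - a) * (2 * (h : ℂ) ^ 2) * (2 * h * c)))))
        + (-(((c - 1 : ℝ) : ℂ) ^ 2 / 2) + 3 * a * (h : ℂ) ^ 2 * ((c - 1 : ℝ) : ℂ)
          + (a ^ 2 - a) * (h : ℂ) ^ 2 * (((c - 1 : ℝ) : ℂ) * ((c : ℂ) ^ 2 + c + 1))
          + 4 * (a ^ 2 - a) * (h : ℂ) ^ 4 * c) := by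
    push_cast
    linear_combination
      ((c : ℂ) * (1 + a * (2 * (h : ℂ) ^ 2) + (a ^ 2 - a) * (2 * (h : ℂ) ^ 2) ^ 2 / 2)
        + ((c : ℂ) * ((a ^ 2 - a) * (2 * (h : ℂ) * c) ^ 2 / 2)
          - (h : ℂ) * (-(a * (2 * h * c)) - (a ^ 2 - a) * (2 * (h : ℂ) ^ 2) * (2 * h * c)))
          / 2) * hcπ + (1 / 2 : ℂ) * hc2C
  rw [hsplit]
  have hn1 : ‖cπ * (I - (2 * Real.pi *
          ((c : ℂ) * (1 + a * (2 * (h : ℂ) ^ 2) + (a ^ 2 - a) * (2 * (h : ℂ) ^ 2) ^ 2 / 2))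
        + Real.pi * ((c : ℂ) * ((a ^ 2 - a) * (2 * (h : ℂ) * c) ^ 2 / 2)
          - (h : ℂ) * (-(a * (2 * h * c)) - (a ^ 2 - a) * (2 * (h : ℂ) ^ 2) * (2 * h * c)))))‖
      ≤ 54 * kA502 a * h ^ 3 := by
    rw [norm_mul, hcπn]
    calc 1 / (2 * Real.pi) * ‖_‖
        ≤ 1 / (2 * Real.pi) * (54 * kA502 a * h ^ 3 * (2 * Real.pi)) :=
          mul_le_mul_of_nonneg_left hint (by positivity)
      _ = 54 * kA502 a * h ^ 3 := by field_simp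
  calc _ ≤ 54 * kA502 a * h ^ 3 + (1 + 2 * ‖a‖ + 12 * ‖a ^ 2 - a‖) * h ^ 3 :=
        (norm_add_le _ _).trans (add_le_add hn1 hrem)
    _ = kQ502 a * h ^ 3 := by unfold kQ502; ring

end Abs

/-- **The expansion of `q` at `τ = 0`.** -/
theorem sphQ_expand502 (a : ℂ) (τ : ℝ) (hτ : 0 < τ) (hB : Real.sinh τ ≤ bQ502 a) :
    ‖sphQ502 a τ - 1 - ((a + 1) ^ 2 - 1 / 2) * ((Real.sinh τ : ℝ) : ℂ) ^ 2‖
      ≤ kQ502 a * Real.sinh τ ^ 3 := by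
  have h := sphQ_expand_abs502 a (Real.cosh τ) (Real.sinh τ) (Real.cosh_sq τ)
    (Real.one_le_cosh τ) (Real.sinh_pos_iff.2 hτ) hB
  have h2c : Real.cosh (2 * τ) = 1 + 2 * Real.sinh τ ^ 2 := by
    rw [Real.cosh_two_mul, Real.cosh_sq τ]
    ring
  have h2s : Real.sinh (2 * τ) = 2 * Real.sinh τ * Real.cosh τ := Real.sinh_two_mul τ
  unfold sphQ502
  rw [h2c, h2s]
  exact h

/-- Weight `±1`: if `sphR1 s (cosh t)` is real on `(0, ∞)`, then `s²` is real. -/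
theorem paramQ_im502 (s : ℂ)
    (h : ∀ t : ℝ, 0 < t → (sphR1_502 s (Real.cosh t)).im = 0) : (s ^ 2).im = 0 := by
  have key : ∀ B : ℝ, 0 < B → B ≤ bQ502 (-s - 1) →
      |(s ^ 2).im| ≤ 4 * (kQ502 (-s - 1) / 4) * B := by
    intro B hB hBle
    have hτ : 0 < Real.arsinh B := Real.arsinh_pos_iff.2 hB
    have hsinh : Real.sinh (Real.arsinh B) = B := Real.sinh_arsinh B
    have hexp := sphQ_expand502 (-s - 1) (Real.arsinh B) hτ (by rw [hsinh]; exact hBle)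
    rw [hsinh, ← sphR1_eq_sphQ502 s (Real.arsinh B) hτ.le] at hexp
    have him := h (2 * Real.arsinh B) (by linarith)
    generalize sphR1_502 s (Real.cosh (2 * Real.arsinh B)) = P at hexp him
    have e : ((-s - 1 + 1) ^ 2 - 1 / 2) * ((B : ℝ) : ℂ) ^ 2
        = ((B ^ 2 : ℝ) : ℂ) * (s ^ 2 - 1 / 2) := by
      push_cast
      ring
    rw [e] at hexp
    have hDim : (P - 1 - ((B ^ 2 : ℝ) : ℂ) * (s ^ 2 - 1 / 2)).im = -(B ^ 2 * (s ^ 2).im) := by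
      rw [Complex.sub_im, Complex.sub_im, Complex.im_ofReal_mul, him, Complex.one_im,
        Complex.sub_im]
      have : ((1 : ℂ) / 2).im = 0 := by simp
      rw [this]
      ring
    have h1 := (Complex.abs_im_le_norm _).trans hexp
    rw [hDim, abs_neg, abs_mul, abs_of_pos (by positivity : (0 : ℝ) < B ^ 2)] at h1
    have hB2 : 0 < B ^ 2 := by positivity
    have h3 : |(s ^ 2).im| * B ^ 2 ≤ (4 * (kQ502 (-s - 1) / 4) * B) * B ^ 2 := by nlinarith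
    exact le_of_mul_le_mul_right h3 hB2
  have h1 := small_of_forall502 |(s ^ 2).im| (kQ502 (-s - 1) / 4) (bQ502 (-s - 1))
    (div_nonneg (kQ_nonneg502 _) (by norm_num)) (bQ_pos502 _) key
  exact abs_eq_zero.1 (le_antisymm h1 (abs_nonneg _))

end Fermat.Agent.LT.T6.Inf.H502

end
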