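import Mathlib
import Fermat.Agent.LT.T6.Inf.H502.UpQ

/-!
# Row LT, sub-tower T6inf, leaf T6inf.05 (helper502): weight `±1`, growth at infinity

OFF-MAIN.  Mathlib only.

For REAL `σ` with `|σ| > 1/2` the function `t ↦ sphR1 σ (cosh t)` is not bounded by `1`
(`growQ_neg502`, `growQ_pos502`): the integrand is positive, and
* `σ < -1/2`: on `u ∈ [π/2, 3π/2]` it is `≥ (1/2) e^{2 τ min(η, 1/2)}`, `η = -σ - 1/2`, `t = 2τ`;
* `σ > 1/2`: on `u ∈ [0, e^{-t}]` it is `≥ e^{-τ} ((5/4) e^{-t})^{-σ-1}`.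
-/

set_option autoImplicit false

open Real MeasureTheory

noncomputable section

namespace Fermat.Agent.LT.T6.Inf.H502

theorem base_pos_cosh502 (t u : ℝ) : 0 < Real.cosh t - Real.cos u * Real.sinh t := by
  have h1 : |Real.cos u * Real.sinh t| ≤ |Real.sinh t| := by
    rw [abs_mul]
    calc |Real.cos u| * |Real.sinh t| ≤ 1 * |Real.sinh t| :=
          mul_le_mul_of_nonneg_right (Real.abs_cos_le_one u) (abs_nonneg _)
      _ = |Real.sinh t| := one_mul _
  have h2 : |Real.sinh t| < Real.cosh t := by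
    rw [abs_lt]
    constructor
    · have := Real.cosh_add_sinh t
      have := Real.exp_pos t
      linarith
    · exact Real.sinh_lt_cosh t
  have h3 := le_abs_self (Real.cos u * Real.sinh t)
  linarith

/-- The real integrand of `q(e, τ)`. -/
def fQ502 (e τ u : ℝ) : ℝ :=
  (Real.cosh τ - Real.cos u * Real.sinh τ)
    * (Real.cosh (2 * τ) - Real.cos u * Real.sinh (2 * τ)) ^ e

theorem fQ_nonneg502 (e τ u : ℝ) : 0 ≤ fQ502 e τ u := by
  unfold fQ502
  exact mul_nonneg (base_pos_cosh502 τ u).le (Real.rpow_nonneg (base_pos_cosh502 (2 * τ) u).le e)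

theorem continuous_fQ502 (e τ : ℝ) : Continuous (fQ502 e τ) := by
  unfold fQ502
  have h1 : Continuous fun u : ℝ => Real.cosh τ - Real.cos u * Real.sinh τ := by fun_prop
  have h2 : Continuous fun u : ℝ => Real.cosh (2 * τ) - Real.cos u * Real.sinh (2 * τ) := by
    fun_prop
  exact h1.mul (h2.rpow_const fun u => Or.inl (base_pos_cosh502 (2 * τ) u).ne')

theorem sphQ_real502 (e τ : ℝ) :
    sphQ502 (e : ℂ) τ
      = (((1 / (2 * Real.pi)) * ∫ u in (0 : ℝ)..(2 * Real.pi), fQ502 e τ u : ℝ) : ℂ) := by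
  unfold sphQ502
  rw [Complex.ofReal_mul, ← intervalIntegral.integral_ofReal]
  congr 1
  refine intervalIntegral.integral_congr fun u _ => ?_
  show _ = ((fQ502 e τ u : ℝ) : ℂ)
  unfold fQ502
  rw [Complex.ofReal_mul, Complex.ofReal_cpow (base_pos_cosh502 (2 * τ) u).le]

/-- A lower bound for the integral of a nonnegative function. -/
theorem integral_ge_of_sub502 (F : ℝ → ℝ) (hF : Continuous F) (hF0 : ∀ u, 0 ≤ F u)
    (a b m : ℝ) (ha : 0 ≤ a) (hab : a ≤ b) (hb : b ≤ 2 * Real.pi)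
    (hm : ∀ u ∈ Set.Icc a b, m ≤ F u) :
    m * (b - a) ≤ ∫ u in (0 : ℝ)..(2 * Real.pi), F u := by
  have h1 := intervalIntegral.integral_add_adjacent_intervals
    (hF.intervalIntegrable (μ := volume) 0 a) (hF.intervalIntegrable (μ := volume) a (2 * Real.pi))
  have h2 := intervalIntegral.integral_add_adjacent_intervals
    (hF.intervalIntegrable (μ := volume) a b) (hF.intervalIntegrable (μ := volume) b (2 * Real.pi))
  have h3 : 0 ≤ ∫ u in (0 : ℝ)..a, F u :=
    intervalIntegral.integral_nonneg ha fun u _ => hF0 u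
  have h4 : 0 ≤ ∫ u in b..(2 * Real.pi), F u :=
    intervalIntegral.integral_nonneg hb fun u _ => hF0 u
  have h5 : ∫ _u in a..b, m ≤ ∫ u in a..b, F u :=
    intervalIntegral.integral_mono_on hab (continuous_const.intervalIntegrable _ _)
      (hF.intervalIntegrable _ _) hm
  rw [intervalIntegral.integral_const, smul_eq_mul] at h5
  linarith

theorem exp_half_le_cosh502 (τ : ℝ) : Real.exp τ / 2 ≤ Real.cosh τ := by
  rw [Real.cosh_eq]
  have := Real.exp_pos (-τ)
  linarith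

/-- Growth for `σ < -1/2`. -/
theorem growQ_neg502 (σ : ℝ) (hσ : σ < -1 / 2) :
    ∃ t : ℝ, 0 < t ∧ 1 < ‖sphR1_502 (σ : ℂ) (Real.cosh t)‖ := by
  obtain ⟨η, hη⟩ : ∃ η : ℝ, η = min (-σ - 1 / 2) (1 / 2) := ⟨_, rfl⟩
  have hη0 : 0 < η := by
    rw [hη]
    apply lt_min <;> linarith
  have hη1 : η ≤ -σ - 1 / 2 := by rw [hη]; exact min_le_left _ _
  have hη2 : η ≤ 1 / 2 := by rw [hη]; exact min_le_right _ _
  obtain ⟨τ, hτdef⟩ : ∃ τ : ℝ, τ = 2 / η := ⟨_, rfl⟩
  have hτ : 0 < τ := by rw [hτdef]; positivity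
  have hτη : 2 * τ * η = 4 := by
    rw [hτdef]
    field_simp
    ring
  refine ⟨2 * τ, by linarith, ?_⟩
  have e0 : (-(σ : ℂ) - 1) = (((-σ - 1 : ℝ)) : ℂ) := by push_cast; ring
  rw [sphR1_eq_sphQ502 _ τ hτ.le, e0, sphQ_real502, Complex.norm_real, Real.norm_eq_abs]
  -- the lower bound on `[π/2, 3π/2]`
  have hpt : ∀ u ∈ Set.Icc (Real.pi / 2) (3 * Real.pi / 2),
      Real.exp (2 * τ * η) / 2 ≤ fQ502 (-σ - 1) τ u := by
    intro u hu
    have hcos : Real.cos u ≤ 0 := by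
      apply Real.cos_nonpos_of_pi_div_two_le_of_le hu.1
      have := hu.2
      linarith [Real.pi_pos]
    have hs : 0 ≤ Real.sinh τ := Real.sinh_nonneg_iff.2 hτ.le
    have hs2 : 0 ≤ Real.sinh (2 * τ) := Real.sinh_nonneg_iff.2 (by linarith)
    have hf1 : Real.exp τ / 2 ≤ Real.cosh τ - Real.cos u * Real.sinh τ := by
      have := exp_half_le_cosh502 τ
      nlinarith
    have hb1 : 1 ≤ Real.cosh (2 * τ) - Real.cos u * Real.sinh (2 * τ) := by
      have := Real.one_le_cosh (2 * τ)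
      nlinarith
    have hb2 : Real.cosh (2 * τ) - Real.cos u * Real.sinh (2 * τ) ≤ Real.exp (2 * τ) := by
      have h1 := Real.cosh_add_sinh (2 * τ)
      have h2 : -Real.cos u ≤ 1 := by
        have := Real.neg_one_le_cos u
        linarith
      nlinarith
    have hbpos := base_pos_cosh502 (2 * τ) u
    -- the power
    have hpow : Real.exp (2 * τ * (η - 1 / 2))
        ≤ (Real.cosh (2 * τ) - Real.cos u * Real.sinh (2 * τ)) ^ (-σ - 1) := by
      rw [Real.rpow_def_of_pos hbpos]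
      apply Real.exp_le_exp.2
      have hlog0 : 0 ≤ Real.log (Real.cosh (2 * τ) - Real.cos u * Real.sinh (2 * τ)) :=
        Real.log_nonneg hb1
      have hlog1 : Real.log (Real.cosh (2 * τ) - Real.cos u * Real.sinh (2 * τ)) ≤ 2 * τ := by
        have := Real.log_le_log hbpos hb2
        rwa [Real.log_exp] at this
      -- `2τ (η - 1/2) ≤ log b · (-σ - 1)`, with `η - 1/2 ≤ 0` and `η - 1/2 ≤ -σ - 1`
      have hη3 : η - 1 / 2 ≤ -σ - 1 := by linarith
      have hη4 : η - 1 / 2 ≤ 0 := by linarith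
      calc 2 * τ * (η - 1 / 2)
          ≤ Real.log (Real.cosh (2 * τ) - Real.cos u * Real.sinh (2 * τ)) * (η - 1 / 2) := by
            nlinarith
        _ ≤ Real.log (Real.cosh (2 * τ) - Real.cos u * Real.sinh (2 * τ)) * (-σ - 1) :=
            mul_le_mul_of_nonneg_left hη3 hlog0
    unfold fQ502
    have hsplit : Real.exp (2 * τ * η) / 2
        = (Real.exp τ / 2) * Real.exp (2 * τ * (η - 1 / 2)) := by
      have : 2 * τ * η = τ + 2 * τ * (η - 1 / 2) := by ring
      rw [this, Real.exp_add]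
      ring
    rw [hsplit]
    exact mul_le_mul hf1 hpow (Real.exp_pos _).le (by linarith [Real.exp_pos τ])
  have hint := integral_ge_of_sub502 (fQ502 (-σ - 1) τ) (continuous_fQ502 _ _)
    (fQ_nonneg502 _ _) (Real.pi / 2) (3 * Real.pi / 2) (Real.exp (2 * τ * η) / 2)
    (by positivity) (by linarith [Real.pi_pos]) (by linarith [Real.pi_pos]) hpt
  have hpi := Real.pi_pos
  have hexp4 : 5 ≤ Real.exp (2 * τ * η) := by
    rw [hτη]
    have := Real.add_one_le_exp 4
    linarith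
  have hnn : 0 ≤ 1 / (2 * Real.pi) * ∫ u in (0 : ℝ)..(2 * Real.pi), fQ502 (-σ - 1) τ u := by
    apply mul_nonneg (by positivity)
    exact intervalIntegral.integral_nonneg (by positivity) fun u _ => fQ_nonneg502 _ _ _
  rw [abs_of_nonneg hnn]
  have h6 : Real.exp (2 * τ * η) / 2 * (3 * Real.pi / 2 - Real.pi / 2)
      = Real.exp (2 * τ * η) / 2 * Real.pi := by ring
  rw [h6] at hint
  calc (1 : ℝ) < 1 / (2 * Real.pi) * (5 / 2 * Real.pi) := by
        field_simp
        norm_num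
    _ ≤ 1 / (2 * Real.pi) * (Real.exp (2 * τ * η) / 2 * Real.pi) := by
        apply mul_le_mul_of_nonneg_left _ (by positivity)
        nlinarith
    _ ≤ 1 / (2 * Real.pi) * ∫ u in (0 : ℝ)..(2 * Real.pi), fQ502 (-σ - 1) τ u :=
        mul_le_mul_of_nonneg_left hint (by positivity)

theorem sinh_le_exp_half502 (t : ℝ) : Real.sinh t ≤ Real.exp t / 2 := by
  rw [Real.sinh_eq]
  have := Real.exp_pos (-t)
  linarith

/-- Growth for `σ > 1/2`. -/
theorem growQ_pos502 (σ : ℝ) (hσ : 1 / 2 < σ) :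
    ∃ t : ℝ, 0 < t ∧ 1 < ‖sphR1_502 (σ : ℂ) (Real.cosh t)‖ := by
  have hσ' : 0 < σ - 1 / 2 := by linarith
  obtain ⟨τ, hτdef⟩ : ∃ τ : ℝ, τ = (7 + (σ + 1) / 4) / (2 * (σ - 1 / 2)) := ⟨_, rfl⟩
  have hτ : 0 < τ := by
    rw [hτdef]
    apply div_pos <;> linarith
  have hτ2 : τ * (2 * (σ - 1 / 2)) = 7 + (σ + 1) / 4 := by
    rw [hτdef]
    exact div_mul_cancel₀ _ (by linarith : (2 * (σ - 1 / 2)) ≠ 0)
  have hX : -τ + (1 / 4 - 2 * τ) * (-σ - 1) - 2 * τ = 7 := by
    linear_combination hτ2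
  refine ⟨2 * τ, by linarith, ?_⟩
  have e0 : (-(σ : ℂ) - 1) = (((-σ - 1 : ℝ)) : ℂ) := by push_cast; ring
  rw [sphR1_eq_sphQ502 _ τ hτ.le, e0, sphQ_real502, Complex.norm_real, Real.norm_eq_abs]
  have hδ0 : 0 < Real.exp (-(2 * τ)) := Real.exp_pos _
  have hδ1 : Real.exp (-(2 * τ)) ≤ 1 := by
    rw [← Real.exp_zero]
    exact Real.exp_le_exp.2 (by linarith)
  have hpt : ∀ u ∈ Set.Icc (0 : ℝ) (Real.exp (-(2 * τ))),
      Real.exp (-τ + (1 / 4 - 2 * τ) * (-σ - 1)) ≤ fQ502 (-σ - 1) τ u := by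
    intro u hu
    have hs : 0 ≤ Real.sinh τ := Real.sinh_nonneg_iff.2 hτ.le
    have hs2 : 0 ≤ Real.sinh (2 * τ) := Real.sinh_nonneg_iff.2 (by linarith)
    have hcos1 : Real.cos u ≤ 1 := Real.cos_le_one u
    have hcos2 : 1 - u ^ 2 / 2 ≤ Real.cos u := Real.one_sub_sq_div_two_le_cos
    have hf1 : Real.exp (-τ) ≤ Real.cosh τ - Real.cos u * Real.sinh τ := by
      have := Real.cosh_sub_sinh τ
      nlinarith
    have hbpos := base_pos_cosh502 (2 * τ) u
    have hu2 : u ^ 2 ≤ Real.exp (-(2 * τ)) ^ 2 := pow_le_pow_left₀ hu.1 hu.2 2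
    have hee : Real.exp (-(2 * τ)) ^ 2 * Real.exp (2 * τ) = Real.exp (-(2 * τ)) := by
      rw [pow_two, mul_assoc, ← Real.exp_add]
      simp
    have hb2 : Real.cosh (2 * τ) - Real.cos u * Real.sinh (2 * τ)
        ≤ 5 / 4 * Real.exp (-(2 * τ)) := by
      have h1 := Real.cosh_sub_sinh (2 * τ)
      have h2 := sinh_le_exp_half502 (2 * τ)
      have h3 : Real.cosh (2 * τ) - Real.cos u * Real.sinh (2 * τ)
          ≤ Real.cosh (2 * τ) - (1 - u ^ 2 / 2) * Real.sinh (2 * τ) := by nlinarith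
      have h4 : u ^ 2 / 2 * Real.sinh (2 * τ)
          ≤ Real.exp (-(2 * τ)) ^ 2 / 2 * (Real.exp (2 * τ) / 2) := by
        apply mul_le_mul _ h2 hs2 (by positivity)
        linarith
      have h5 : Real.exp (-(2 * τ)) ^ 2 / 2 * (Real.exp (2 * τ) / 2)
          = Real.exp (-(2 * τ)) / 4 := by
        have : Real.exp (-(2 * τ)) ^ 2 / 2 * (Real.exp (2 * τ) / 2)
            = Real.exp (-(2 * τ)) ^ 2 * Real.exp (2 * τ) / 4 := by ring
        rw [this, hee]
      nlinarith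
    have hlog : Real.log (Real.cosh (2 * τ) - Real.cos u * Real.sinh (2 * τ))
        ≤ 1 / 4 - 2 * τ := by
      have h1 := Real.log_le_log hbpos hb2
      rw [Real.log_mul (by norm_num) hδ0.ne', Real.log_exp] at h1
      have h2 : Real.log (5 / 4) ≤ 5 / 4 - 1 := Real.log_le_sub_one_of_pos (by norm_num)
      linarith
    have hpow : Real.exp ((1 / 4 - 2 * τ) * (-σ - 1))
        ≤ (Real.cosh (2 * τ) - Real.cos u * Real.sinh (2 * τ)) ^ (-σ - 1) := by
      rw [Real.rpow_def_of_pos hbpos]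
      apply Real.exp_le_exp.2
      have : -σ - 1 ≤ 0 := by linarith
      exact mul_le_mul_of_nonpos_right hlog this
    unfold fQ502
    rw [Real.exp_add]
    exact mul_le_mul hf1 hpow (Real.exp_pos _).le (by linarith [Real.exp_pos (-τ)])
  have hpi := Real.pi_pos
  have hint := integral_ge_of_sub502 (fQ502 (-σ - 1) τ) (continuous_fQ502 _ _)
    (fQ_nonneg502 _ _) 0 (Real.exp (-(2 * τ))) (Real.exp (-τ + (1 / 4 - 2 * τ) * (-σ - 1)))
    le_rfl hδ0.le (by linarith [Real.pi_gt_three]) hpt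
  rw [sub_zero, ← Real.exp_add] at hint
  have hX' : -τ + (1 / 4 - 2 * τ) * (-σ - 1) + -(2 * τ) = 7 := by linarith
  rw [hX'] at hint
  have hexp7 : 8 ≤ Real.exp 7 := by
    have := Real.add_one_le_exp 7
    linarith
  have hnn : 0 ≤ 1 / (2 * Real.pi) * ∫ u in (0 : ℝ)..(2 * Real.pi), fQ502 (-σ - 1) τ u := by
    apply mul_nonneg (by positivity)
    exact intervalIntegral.integral_nonneg (by positivity) fun u _ => fQ_nonneg502 _ _ _
  rw [abs_of_nonneg hnn]
  have hpi4 := Real.pi_lt_four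
  calc (1 : ℝ) < 1 / (2 * Real.pi) * 8 := by
        rw [one_div, inv_mul_eq_div, lt_div_iff₀ (by positivity)]
        linarith
    _ ≤ 1 / (2 * Real.pi) * ∫ u in (0 : ℝ)..(2 * Real.pi), fQ502 (-σ - 1) τ u :=
        mul_le_mul_of_nonneg_left (hexp7.trans hint) (by positivity)

/-- Weight `±1`: if `sphR1 s (cosh t)` is real and bounded by `1` on `(0, ∞)`, then `s² - 1/4` is
real and `≤ 0`. -/
theorem param1_of_bounded502 (s : ℂ)
    (h : ∀ t : ℝ, 0 < t →
      (sphR1_502 s (Real.cosh t)).im = 0 ∧ ‖sphR1_502 s (Real.cosh t)‖ ≤ 1) :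
    (s ^ 2 - 1 / 4).im = 0 ∧ (s ^ 2 - 1 / 4).re ≤ 0 := by
  have him2 : (s ^ 2).im = 0 := paramQ_im502 s fun t ht => (h t ht).1
  have him : s.re * s.im = 0 := by
    have : (s ^ 2).im = 2 * (s.re * s.im) := by
      simp [pow_two, Complex.mul_im]
      ring
    rw [this] at him2
    linarith
  have e1 : (s ^ 2 - 1 / 4).im = (s ^ 2).im := by
    simp [Complex.sub_im]
  have e2 : (s ^ 2 - 1 / 4).re = s.re ^ 2 - s.im ^ 2 - 1 / 4 := by
    simp [pow_two, Complex.sub_re, Complex.mul_re]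
  refine ⟨by rw [e1, him2], ?_⟩
  rw [e2]
  rcases mul_eq_zero.1 him with hσ | hτ
  · rw [hσ]
    nlinarith [sq_nonneg s.im]
  · -- `s` real
    have hsR : s = ((s.re : ℝ) : ℂ) := by
      apply Complex.ext <;> simp [hτ]
    rw [hτ]
    by_contra hcon
    rw [not_le] at hcon
    have hlarge : s.re < -1 / 2 ∨ 1 / 2 < s.re := by
      by_contra hno
      rw [not_or, not_lt, not_lt] at hno
      nlinarith
    rcases hlarge with hneg | hpos
    · obtain ⟨t, ht, hbig⟩ := growQ_neg502 s.re hneg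
      rw [← hsR] at hbig
      exact absurd (h t ht).2 (not_le.2 hbig)
    · obtain ⟨t, ht, hbig⟩ := growQ_pos502 s.re hpos
      rw [← hsR] at hbig
      exact absurd (h t ht).2 (not_le.2 hbig)

end Fermat.Agent.LT.T6.Inf.H502

end
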