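/-
T6inf.05 (helper502): `UpUnitaryC`, VERBATIM against `Fermat.Agent.LT.T6.Inf.Spec`.

The analytic content lives in the Mathlib-only files `UpCore`, `UpShift`, `UpC`, `UpQ`, `UpGrow`
of this directory; this file only identifies the three integrals of `T6.SpecArch` with their
byte copies and assembles the statement.
-/
import Mathlib
import Fermat.Agent.LT.T6.Inf.Spec
import Fermat.Agent.LT.T6.Inf.H502.UpC
import Fermat.Agent.LT.T6.Inf.H502.UpGrow

set_option autoImplicit false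

noncomputable section

namespace Fermat.Agent.LT.T6.Inf.H502

theorem sphR0_spec502 (s : ℂ) (ρ : ℝ) : Fermat.Agent.LT.T6.sphR0 s ρ = sphR0_502 s ρ := rfl

theorem sphR1_spec502 (s : ℂ) (ρ : ℝ) : Fermat.Agent.LT.T6.sphR1 s ρ = sphR1_502 s ρ := rfl

theorem sphC_spec502 (ν : ℂ) (ρ : ℝ) : Fermat.Agent.LT.T6.sphC ν ρ = sphC502 ν ρ := rfl

theorem sphRad_zero502 (s : ℂ) (ρ : ℝ) : Fermat.Agent.LT.T6.sphRad 0 s ρ = sphR0_502 s ρ := by
  unfold Fermat.Agent.LT.T6.sphRad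
  rw [if_pos rfl, sphR0_spec502]

theorem sphRad_ne502 (n : ℤ) (hn : n ≠ 0) (s : ℂ) (ρ : ℝ) :
    Fermat.Agent.LT.T6.sphRad n s ρ = sphR1_502 s ρ := by
  unfold Fermat.Agent.LT.T6.sphRad
  rw [if_neg hn, sphR1_spec502]

/-- The closed form of `T6.sphC` on `(1, ∞)`: `sphC ν (cosh d) = sinh (ν d) / (ν sinh d)`
(`= d / sinh d` for `ν = 0`), in the packaged form `sphR502`. -/
theorem sphC_closed502 (ν : ℂ) (d : ℝ) (hd : 0 < d) :
    Fermat.Agent.LT.T6.sphC ν (Real.cosh d) = sphR502 ν d := by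
  rw [sphC_spec502, sphC_eq502 ν d hd]

/-- If the radial spherical function of weight `n ∈ {0, ±1}` and parameter `s` is real and bounded
by `1` on `(0, ∞)`, then `s² - 1/4` is real and `≤ 0`, i.e. `s ∈ iℝ ∪ [-1/2, 1/2]`. -/
theorem param_of_sphRad502 (n : ℤ) (s : ℂ)
    (h : ∀ t : ℝ, 0 < t →
      (Fermat.Agent.LT.T6.sphRad n s (Real.cosh t)).im = 0 ∧
        ‖Fermat.Agent.LT.T6.sphRad n s (Real.cosh t)‖ ≤ 1) :
    (s ^ 2 - 1 / 4).im = 0 ∧ (s ^ 2 - 1 / 4).re ≤ 0 := by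
  by_cases hn : n = 0
  · subst hn
    refine param0_of_bounded502 s fun t ht => ?_
    have := h t ht
    rwa [sphRad_zero502] at this
  · refine param1_of_bounded502 s fun t ht => ?_
    have := h t ht
    rwa [sphRad_ne502 n hn] at this

/-- **T6inf.05.** -/
theorem upUnitaryC502 : Fermat.Agent.LT.T6.Inf.UpUnitaryC := by
  intro n _ s h d hd
  obtain ⟨h1, h2⟩ := param_of_sphRad502 n s h
  rw [sphC_closed502 (2 * s) d hd]
  exact sphR_bounded502 s h1 h2 d hd

end Fermat.Agent.LT.T6.Inf.H502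

end
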